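/-
S52 / [M2] (Frobenius quadratic equation, Manin's elementary method) — definitions.
Owner: helper29 (M2 sub-lead).

Everything is POINTWISE over a field `k` (algebraically closed in the applications):
an endomorphism `α : E(k) →+ E(k)` has the *generic x-representation* `(N, D)` if `N, D ∈ k[X]`
are coprime and, for all affine points `P = (x, y)` with `x` outside a finite set,
`(N(x), D(x))` is proportional to `xRep (α P)` (`= ![x(αP), 1]`, resp. `![1, 0]` if `α P = 0`).
Its `x`-degree is `max (natDegree N) (natDegree D)`.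
-/
import Mathlib

set_option autoImplicit false

namespace Fermat.Agent.S52.M2

open Polynomial WeierstrassCurve WeierstrassCurve.Affine

section General

variable {k : Type*} [Field k] [DecidableEq k]

/-- Short Weierstrass form `y² = x³ + a₄ x + a₆`. -/
def IsShort (W : Affine k) : Prop := W.a₁ = 0 ∧ W.a₂ = 0 ∧ W.a₃ = 0

/-- `(N, D)` is a generic `x`-representation of the endomorphism `α`. -/
def GenXRep (W : Affine k) (α : W.Point →+ W.Point) (N D : k[X]) : Prop :=
  IsCoprime N D ∧ ∃ S : Finset k, ∀ (x y : k) (h : W.Nonsingular x y), x ∉ S →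
    ∃ c : k, c ≠ 0 ∧ N.eval x = c * (α (Point.some x y h)).xRep 0 ∧
      D.eval x = c * (α (Point.some x y h)).xRep 1

/-- `α` has a generic `x`-representation of degree `d`. -/
def HasXDeg (W : Affine k) (α : W.Point →+ W.Point) (d : ℕ) : Prop :=
  ∃ N D : k[X], GenXRep W α N D ∧ max N.natDegree D.natDegree = d

/-- generic `xy`-representation: `α (x, y) = (a(x)/e(x), y · b(x)/e(x))` outside finitely many
`x`. -/
def XYRep (W : Affine k) (α : W.Point →+ W.Point) (a b e : k[X]) : Prop :=
  ∃ S : Finset k, ∀ (x y : k) (h : W.Nonsingular x y), x ∉ S →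
    e.eval x ≠ 0 ∧ ∃ h' : W.Nonsingular (a.eval x / e.eval x) (y * b.eval x / e.eval x),
      α (Point.some x y h) = Point.some (a.eval x / e.eval x) (y * b.eval x / e.eval x) h'

/-- `α` is `xy`-rational: zero, or generically of the form `(x, y) ↦ (r(x), y · R(x))`. -/
def XYRat (W : Affine k) (α : W.Point →+ W.Point) : Prop :=
  α = 0 ∨ ∃ a b e : k[X], XYRep W α a b e

end General

section Concrete

variable (ℓ : ℕ) [Fact ℓ.Prime] (E0 : WeierstrassCurve (ZMod ℓ))
variable (k : Type*) [Field k] [Algebra (ZMod ℓ) k] [DecidableEq k]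

/-- The Frobenius endomorphism `(x, y) ↦ (x ^ ℓ, y ^ ℓ)` of `E0(k)`, for `E0` over `𝔽_ℓ`. -/
noncomputable def frobPt : (E0.toAffine⁄k).Point →+ (E0.toAffine⁄k).Point :=
  Point.map (W' := E0.toAffine) (FiniteField.frobeniusAlgHom (ZMod ℓ) k)

end Concrete

end Fermat.Agent.S52.M2
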