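/-
S52 / [M2] — basic facts shared by all leaves (short Weierstrass curves over an algebraically
closed field, generic points, rigidity of homomorphisms).  Owner: helper29.
-/
import Mathlib
import Fermat.Agent.S52.M2.Defs

set_option autoImplicit false

namespace Fermat.Agent.S52.M2

open Polynomial WeierstrassCurve WeierstrassCurve.Affine

variable {k : Type*} [Field k] {W : Affine k}

/-- The equation of a short Weierstrass curve. -/
theorem short_equation (hW : IsShort W) (x y : k) :
    W.Equation x y ↔ y ^ 2 = x ^ 3 + W.a₄ * x + W.a₆ := by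
  obtain ⟨h1, h2, h3⟩ := hW
  rw [W.equation_iff, h1, h2, h3]
  constructor <;> intro h <;> linear_combination h

theorem nonsingular_iff_equation (hΔ : W.Δ ≠ 0) (x y : k) : W.Nonsingular x y ↔ W.Equation x y :=
  (W.equation_iff_nonsingular_of_Δ_ne_zero hΔ).symm

theorem short_nonsingular (hW : IsShort W) (hΔ : W.Δ ≠ 0) (x y : k) :
    W.Nonsingular x y ↔ y ^ 2 = x ^ 3 + W.a₄ * x + W.a₆ := by
  rw [nonsingular_iff_equation hΔ, short_equation hW]

/-- On a short curve, `negY x y = -y`. -/
theorem short_negY (hW : IsShort W) (x y : k) : W.negY x y = -y := by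
  obtain ⟨h1, -, h3⟩ := hW
  simp [negY, h1, h3]

/-- The discriminant of a short curve. -/
theorem short_Δ (hW : IsShort W) : W.Δ = -16 * (4 * W.a₄ ^ 3 + 27 * W.a₆ ^ 2) := by
  obtain ⟨h1, h2, h3⟩ := hW
  simp only [WeierstrassCurve.Δ, WeierstrassCurve.b₂, WeierstrassCurve.b₄, WeierstrassCurve.b₆,
    WeierstrassCurve.b₈, h1, h2, h3]
  ring

theorem two_ne_zero_of_short (hW : IsShort W) (hΔ : W.Δ ≠ 0) : (2 : k) ≠ 0 := by
  intro h2
  apply hΔ
  rw [short_Δ hW, show (-16 : k) = -(2 * 2 * 2 * 2) by norm_num, h2]
  ring

/-- Over an algebraically closed field every `x` is the abscissa of a point. -/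
theorem exists_y [IsAlgClosed k] (hW : IsShort W) (hΔ : W.Δ ≠ 0) (x : k) :
    ∃ y : k, W.Nonsingular x y := by
  obtain ⟨y, hy⟩ := IsAlgClosed.exists_pow_nat_eq (x ^ 3 + W.a₄ * x + W.a₆) (n := 2) (by norm_num)
  exact ⟨y, (short_nonsingular hW hΔ x y).mpr hy⟩

/-- A polynomial vanishing outside a finite set is zero. -/
theorem poly_eq_zero_of_cofinite [Infinite k] (S : Finset k) {p : k[X]}
    (h : ∀ x, x ∉ S → p.eval x = 0) : p = 0 := by
  apply Polynomial.eq_zero_of_infinite_isRoot
  have hinf : (Set.univ \ (S : Set k)).Infinite :=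
    Set.Infinite.sdiff Set.infinite_univ S.finite_toSet
  refine hinf.mono fun x hx => ?_
  exact h x (by simpa using hx.2)

/-- Two polynomials agreeing outside a finite set are equal. -/
theorem poly_eq_of_cofinite [Infinite k] (S : Finset k) {p q : k[X]}
    (h : ∀ x, x ∉ S → p.eval x = q.eval x) : p = q := by
  rw [← sub_eq_zero]
  exact poly_eq_zero_of_cofinite S fun x hx => by rw [eval_sub, h x hx, sub_self]

/-- The points which are `0` or have abscissa in the finite set `S`. -/
def badSet (W : Affine k) (S : Finset k) : Set W.Point :=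
  {P | ∀ (x y : k) (h : W.Nonsingular x y), P = Point.some x y h → x ∈ S}

theorem some_mem_badSet_iff (S : Finset k) {x y : k} (h : W.Nonsingular x y) :
    Point.some x y h ∈ badSet W S ↔ x ∈ S := by
  constructor
  · intro hP
    exact hP x y h rfl
  · intro hx x' y' h' he
    rw [Point.some.injEq] at he
    rw [← he.1]
    exact hx

theorem zero_mem_badSet (S : Finset k) : (0 : W.Point) ∈ badSet W S := by
  intro x y h he
  exact absurd he (by simp [Point.zero_def])

variable [DecidableEq k]

theorem badSet_finite (S : Finset k) : (badSet W S).Finite := by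
  classical
  have hfin : ((insert (![1, 0] : Fin 2 → k) (S.image fun x => (![x, 1] : Fin 2 → k)) :
      Finset (Fin 2 → k)) : Set (Fin 2 → k)).Finite := Finset.finite_toSet _
  have hpre := Set.Finite.preimage' (f := fun P : W.Point => P.xRep) hfin (by
    intro b _
    by_cases hb : ∃ P : W.Point, P.xRep = b
    · obtain ⟨P, hP⟩ := hb
      apply Set.Finite.subset (Set.toFinite {P, -P})
      intro Q hQ
      have hQ' : Q.xRep = P.xRep := by rw [hP]; exact hQ
      rcases Point.xRep_eq_xRep_iff.mp hQ' with h | h
      · simp [h]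
      · simp [h]
    · convert Set.finite_empty
      ext Q
      simp only [Set.mem_preimage, Set.mem_singleton_iff, Set.mem_empty_iff_false, iff_false]
      exact fun hQ => hb ⟨Q, hQ⟩)
  apply hpre.subset
  intro P hP
  simp only [Set.mem_preimage, Finset.coe_insert, Finset.coe_image, Set.mem_insert_iff,
    Set.mem_image, Finset.mem_coe]
  match P, hP with
  | 0, _ => left; rfl
  | .some x y h, hP =>
    right
    exact ⟨x, (some_mem_badSet_iff S h).mp hP, rfl⟩

omit [DecidableEq k] in
theorem point_infinite [IsAlgClosed k] (hW : IsShort W) (hΔ : W.Δ ≠ 0) : Infinite W.Point := by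
  have hinj : Function.Injective fun x : k =>
      (Point.some x (exists_y hW hΔ x).choose (exists_y hW hΔ x).choose_spec : W.Point) := by
    intro x x' h
    simp only [Point.some.injEq] at h
    exact h.1
  exact Infinite.of_injective _ hinj

/-- Given finitely many finite "bad" sets of abscissas, translates etc.: a point avoiding a finite
set of points. -/
theorem exists_not_mem_finite [IsAlgClosed k] (hW : IsShort W) (hΔ : W.Δ ≠ 0)
    {B : Set W.Point} (hB : B.Finite) : ∃ Q : W.Point, Q ∉ B :=
  haveI := point_infinite hW hΔ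
  hB.exists_notMem

/-- Rigidity: two endomorphisms agreeing at all affine points with abscissa outside a finite set
are equal. -/
theorem eq_of_generic [IsAlgClosed k] (hW : IsShort W) (hΔ : W.Δ ≠ 0)
    {α β : W.Point →+ W.Point} (S : Finset k)
    (h : ∀ (x y : k) (hxy : W.Nonsingular x y), x ∉ S →
      α (Point.some x y hxy) = β (Point.some x y hxy)) : α = β := by
  have key : ∀ Q : W.Point, Q ∉ badSet W S → α Q = β Q := by
    intro Q hQ
    match Q, hQ with
    | 0, hQ => exact absurd (zero_mem_badSet S) hQ
    | .some x y hxy, hQ => exact h x y hxy fun hx => hQ ((some_mem_badSet_iff S hxy).mpr hx)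
  ext P
  have hfin : (badSet W S ∪ (fun Q => P - Q) ⁻¹' badSet W S).Finite := by
    apply (badSet_finite S).union
    apply (badSet_finite S).preimage
    intro a _ b _ hab
    simpa using hab
  obtain ⟨Q, hQ⟩ := exists_not_mem_finite hW hΔ hfin
  have h1 : Q ∉ badSet W S := fun h' => hQ (Or.inl h')
  have h2 : P - Q ∉ badSet W S := fun h' => hQ (Or.inr h')
  calc α P = α (P - Q) + α Q := by rw [← map_add, sub_add_cancel]
    _ = β (P - Q) + β Q := by rw [key _ h1, key _ h2]
    _ = β P := by rw [← map_add, sub_add_cancel]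

/-- An endomorphism vanishing at all affine points with abscissa outside a finite set is `0`. -/
theorem eq_zero_of_generic [IsAlgClosed k] (hW : IsShort W) (hΔ : W.Δ ≠ 0)
    {α : W.Point →+ W.Point} (S : Finset k)
    (h : ∀ (x y : k) (hxy : W.Nonsingular x y), x ∉ S → α (Point.some x y hxy) = 0) : α = 0 :=
  eq_of_generic hW hΔ S fun x y hxy hx => by rw [h x y hxy hx]; rfl

end Fermat.Agent.S52.M2
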