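/-
S52 / [M2] — internal contracts (one `def … : Prop` per leaf).  Owner: helper29 (M2 sub-lead).
`Main.lean` proves `FrobQuadStmt` from these; each leaf file proves its contract verbatim.
-/
import Mathlib
import Fermat.Agent.S52.M2.Defs

set_option autoImplicit false

namespace Fermat.Agent.S52.M2

open Polynomial WeierstrassCurve WeierstrassCurve.Affine

universe u

/-! ### General leaves: `k` algebraically closed, `W` short Weierstrass with `Δ ≠ 0` -/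

/-- [M2-XY] `xy`-rational endomorphisms are closed under addition. -/
def XYAddStmt : Prop :=
  ∀ (k : Type u) [Field k] [IsAlgClosed k] [DecidableEq k] (W : Affine k), IsShort W → W.Δ ≠ 0 →
    ∀ α β : W.Point →+ W.Point, XYRat W α → XYRat W β → XYRat W (α + β)

/-- [M2-XY] `xy`-rational endomorphisms are closed under negation. -/
def XYNegStmt : Prop :=
  ∀ (k : Type u) [Field k] [IsAlgClosed k] [DecidableEq k] (W : Affine k), IsShort W → W.Δ ≠ 0 →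
    ∀ α : W.Point →+ W.Point, XYRat W α → XYRat W (-α)

/-- [M2-CORE] an `xy`-rational endomorphism has a generic `x`-representation. -/
def XYtoXStmt : Prop :=
  ∀ (k : Type u) [Field k] [IsAlgClosed k] [DecidableEq k] (W : Affine k), IsShort W → W.Δ ≠ 0 →
    ∀ α : W.Point →+ W.Point, XYRat W α → ∃ d : ℕ, HasXDeg W α d

/-- [M2-CORE] the `x`-degree is unique. -/
def UniqStmt : Prop :=
  ∀ (k : Type u) [Field k] [IsAlgClosed k] [DecidableEq k] (W : Affine k), IsShort W → W.Δ ≠ 0 →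
    ∀ (α : W.Point →+ W.Point) (d d' : ℕ), HasXDeg W α d → HasXDeg W α d' → d = d'

/-- [M2-CORE] (glue of helper66's `Lib/HeightLaw.height_law`) parallelogram law. -/
def ParaStmt : Prop :=
  ∀ (k : Type u) [Field k] [IsAlgClosed k] [DecidableEq k] (W : Affine k), IsShort W → W.Δ ≠ 0 →
    ∀ (α β : W.Point →+ W.Point) (a b p m : ℕ), HasXDeg W α a → HasXDeg W β b →
      HasXDeg W (α + β) p → HasXDeg W (α - β) m → p + m = 2 * a + 2 * b

/-- [M2-CORE] degree zero means zero. -/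
def ZeroStmt : Prop :=
  ∀ (k : Type u) [Field k] [IsAlgClosed k] [DecidableEq k] (W : Affine k), IsShort W → W.Δ ≠ 0 →
    ∀ α : W.Point →+ W.Point, HasXDeg W α 0 → α = 0

/-- [M2-COMP] multiplicativity of the `x`-degree under composition (`β` non-constant). -/
def CompStmt : Prop :=
  ∀ (k : Type u) [Field k] [IsAlgClosed k] [DecidableEq k] (W : Affine k), IsShort W → W.Δ ≠ 0 →
    ∀ (α β : W.Point →+ W.Point) (a b : ℕ), HasXDeg W α a → HasXDeg W β b → 0 < b →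
      HasXDeg W (α.comp β) (a * b)

/-! ### Concrete leaves: `E0` over `𝔽_ℓ`, short, `Δ ≠ 0`, `k ⊇ 𝔽_ℓ` algebraically closed -/

/-- [M2-CORE] the base endomorphisms `1`, `φ`, `φ²`. -/
def FrobStmt : Prop :=
  ∀ (ℓ : ℕ) [Fact ℓ.Prime] (E0 : WeierstrassCurve (ZMod ℓ)) (k : Type u) [Field k]
    [Algebra (ZMod ℓ) k] [IsAlgClosed k] [DecidableEq k],
    E0.a₁ = 0 → E0.a₂ = 0 → E0.a₃ = 0 → E0.Δ ≠ 0 →
      XYRat (E0.toAffine⁄k) (AddMonoidHom.id _) ∧ HasXDeg (E0.toAffine⁄k) (AddMonoidHom.id _) 1 ∧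
      XYRat (E0.toAffine⁄k) (frobPt ℓ E0 k) ∧ HasXDeg (E0.toAffine⁄k) (frobPt ℓ E0 k) ℓ ∧
      XYRat (E0.toAffine⁄k) ((frobPt ℓ E0 k).comp (frobPt ℓ E0 k)) ∧
      HasXDeg (E0.toAffine⁄k) ((frobPt ℓ E0 k).comp (frobPt ℓ E0 k)) (ℓ ^ 2)

/-- [M2-HASSE] Hasse's count: the `x`-degree of `φ - 1` is `#E0(𝔽_ℓ)` (including the origin). -/
def HasseStmt : Prop :=
  ∀ (ℓ : ℕ) [Fact ℓ.Prime] (E0 : WeierstrassCurve (ZMod ℓ)) (k : Type u) [Field k]
    [Algebra (ZMod ℓ) k] [IsAlgClosed k] [DecidableEq k],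
    E0.a₁ = 0 → E0.a₂ = 0 → E0.a₃ = 0 → E0.Δ ≠ 0 →
      HasXDeg (E0.toAffine⁄k) (frobPt ℓ E0 k - AddMonoidHom.id _) (Nat.card E0.toAffine.Point)

/-! ### The result of the package -/

/-- [M2] the Frobenius quadratic equation `φ² - a φ + ℓ = 0` on `E0(k)`,
`a = ℓ + 1 - #E0(𝔽_ℓ)`. -/
def FrobQuadStmt : Prop :=
  ∀ (ℓ : ℕ) [Fact ℓ.Prime] (E0 : WeierstrassCurve (ZMod ℓ)) (k : Type u) [Field k]
    [Algebra (ZMod ℓ) k] [IsAlgClosed k] [DecidableEq k],
    E0.a₁ = 0 → E0.a₂ = 0 → E0.a₃ = 0 → E0.Δ ≠ 0 → ∀ P : (E0.toAffine⁄k).Point,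
      frobPt ℓ E0 k (frobPt ℓ E0 k P)
        - ((ℓ : ℤ) + 1 - (Nat.card E0.toAffine.Point : ℤ)) • frobPt ℓ E0 k P + (ℓ : ℤ) • P = 0

end Fermat.Agent.S52.M2
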