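/-
S52 / [M2-CORE] — generic `x`-representations: existence for `xy`-rational endomorphisms,
uniqueness of the degree, degree zero means zero, and the parallelogram law (glue of
`Lib/HeightLaw.ht_add_of_proportional` with the pointwise law `Lib/XAddSub.law`).
Owner: helper29.
-/
import Mathlib
import Fermat.Agent.Lib.XAddSub
import Fermat.Agent.Lib.HeightLaw
import Fermat.Agent.S52.M2.Defs
import Fermat.Agent.S52.M2.Plan
import Fermat.Agent.S52.M2.Basic

set_option autoImplicit false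

namespace Fermat.Agent.S52.M2

open Polynomial WeierstrassCurve WeierstrassCurve.Affine
open Fermat.Agent.Lib

namespace Core

variable {k : Type*} [Field k] [IsAlgClosed k] [DecidableEq k] {W : Affine k}

/-! ### Uniqueness -/

theorem cross_eq (hW : IsShort W) (hΔ : W.Δ ≠ 0) {α : W.Point →+ W.Point} {N D N' D' : k[X]}
    (h : GenXRep W α N D) (h' : GenXRep W α N' D') : N * D' = N' * D := by
  obtain ⟨-, S, hS⟩ := h
  obtain ⟨-, S', hS'⟩ := h'
  apply poly_eq_of_cofinite (S ∪ S')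
  intro x hx
  obtain ⟨y, hy⟩ := exists_y hW hΔ x
  obtain ⟨c, -, e1, e2⟩ := hS x y hy (fun h => hx (Finset.mem_union_left _ h))
  obtain ⟨c', -, e1', e2'⟩ := hS' x y hy (fun h => hx (Finset.mem_union_right _ h))
  simp only [eval_mul, e1, e2, e1', e2']
  ring

omit [IsAlgClosed k] [DecidableEq k] in
theorem natDegree_eq_of_cross {N D N' D' : k[X]} (hc : IsCoprime N D) (hc' : IsCoprime N' D')
    (h : N * D' = N' * D) : N.natDegree = N'.natDegree ∧ D.natDegree = D'.natDegree := by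
  have h1 : N ∣ N' := hc.dvd_of_dvd_mul_right ⟨D', h.symm⟩
  have h2 : N' ∣ N := hc'.dvd_of_dvd_mul_right ⟨D, h⟩
  have h3 : D ∣ D' := hc.symm.dvd_of_dvd_mul_left ⟨N', by rw [h]; ring⟩
  have h4 : D' ∣ D := hc'.symm.dvd_of_dvd_mul_left ⟨N, by rw [← h]; ring⟩
  exact ⟨natDegree_eq_of_degree_eq (degree_eq_degree_of_associated (associated_of_dvd_dvd h1 h2)),
    natDegree_eq_of_degree_eq (degree_eq_degree_of_associated (associated_of_dvd_dvd h3 h4))⟩

theorem uniq (hW : IsShort W) (hΔ : W.Δ ≠ 0) (α : W.Point →+ W.Point) (d d' : ℕ)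
    (h : HasXDeg W α d) (h' : HasXDeg W α d') : d = d' := by
  obtain ⟨N, D, hr, rfl⟩ := h
  obtain ⟨N', D', hr', rfl⟩ := h'
  obtain ⟨e1, e2⟩ := natDegree_eq_of_cross hr.1 hr'.1 (cross_eq hW hΔ hr hr')
  rw [e1, e2]

/-! ### The zero endomorphism and degree zero -/

omit [IsAlgClosed k] in
theorem hasXDeg_zero : HasXDeg W (0 : W.Point →+ W.Point) 0 := by
  refine ⟨1, 0, ⟨isCoprime_one_left, ∅, fun x y h _ => ⟨1, one_ne_zero, ?_, ?_⟩⟩, by simp⟩
  · simp
  · simp

omit [IsAlgClosed k] [DecidableEq k] in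
theorem xRep_one_eq_zero_iff (P : W.Point) : P.xRep 1 = 0 ↔ P = 0 := by
  match P with
  | 0 => simp
  | .some x y h => simp [Point.zero_def]

theorem zero_of_deg (hW : IsShort W) (hΔ : W.Δ ≠ 0) (α : W.Point →+ W.Point)
    (h : HasXDeg W α 0) : α = 0 := by
  obtain ⟨N, D, ⟨hcop, S, hS⟩, hd⟩ := h
  have hN : N.natDegree = 0 := by
    have := le_max_left N.natDegree D.natDegree
    omega
  have hD : D.natDegree = 0 := by
    have := le_max_right N.natDegree D.natDegree
    omega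
  obtain ⟨n, rfl⟩ : ∃ n : k, N = C n := ⟨_, eq_C_of_natDegree_eq_zero hN⟩
  obtain ⟨d, rfl⟩ : ∃ d : k, D = C d := ⟨_, eq_C_of_natDegree_eq_zero hD⟩
  by_cases hd0 : d = 0
  · -- `α` vanishes generically
    apply eq_zero_of_generic hW hΔ S
    intro x y hxy hx
    obtain ⟨c, hc, -, e2⟩ := hS x y hxy hx
    rw [eval_C, hd0] at e2
    have : (α (Point.some x y hxy)).xRep 1 = 0 := by
      rcases mul_eq_zero.mp e2.symm with h | h
      · exact absurd h hc
      · exact h
    exact (xRep_one_eq_zero_iff _).mp this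
  · -- `α` is generically nonzero with constant abscissa: impossible
    exfalso
    have key : ∀ Q : W.Point, Q ∉ badSet W S →
        α Q ≠ 0 ∧ (α Q).xRep = ![n / d, 1] := by
      intro Q hQ
      match Q, hQ with
      | 0, hQ => exact absurd (zero_mem_badSet S) hQ
      | .some x y hxy, hQ =>
        obtain ⟨c, hc, e1, e2⟩ := hS x y hxy fun hx => hQ ((some_mem_badSet_iff S hxy).mpr hx)
        rw [eval_C] at e1 e2
        have hne : α (Point.some x y hxy) ≠ 0 := by
          intro h0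
          rw [h0] at e2
          simp at e2
          exact hd0 e2
        refine ⟨hne, ?_⟩
        match hP : α (Point.some x y hxy), hne with
        | 0, hne => exact absurd rfl hne
        | .some x' y' h', _ =>
          rw [hP] at e1 e2
          simp only [Point.xRep_some, Matrix.cons_val_zero, Matrix.cons_val_one] at e1 e2 ⊢
          rw [mul_one] at e2
          rw [e1, e2, mul_div_cancel_left₀ _ hc]
    obtain ⟨P, hP⟩ := exists_not_mem_finite hW hΔ (badSet_finite (W := W) S)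
    have hfin : (badSet W S ∪ (fun Q => P + Q) ⁻¹' badSet W S ∪
        (fun Q => P - Q) ⁻¹' badSet W S).Finite := by
      refine ((badSet_finite S).union ?_).union ?_
      · apply (badSet_finite S).preimage
        intro a _ b _ hab
        simpa using hab
      · apply (badSet_finite S).preimage
        intro a _ b _ hab
        simpa using hab
    obtain ⟨Q, hQ⟩ := exists_not_mem_finite hW hΔ hfin
    have hQ1 : Q ∉ badSet W S := fun h' => hQ (Or.inl (Or.inl h'))
    have hQ2 : P + Q ∉ badSet W S := fun h' => hQ (Or.inl (Or.inr h'))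
    have hQ3 : P - Q ∉ badSet W S := fun h' => hQ (Or.inr h')
    have hx : (α P).xRep = (α Q).xRep := by rw [(key P hP).2, (key Q hQ1).2]
    rcases Point.xRep_eq_xRep_iff.mp hx with h | h
    · apply (key _ hQ3).1
      rw [map_sub, h, sub_self]
    · apply (key _ hQ2).1
      rw [map_add, h, neg_add_cancel]

/-! ### From `xy`-representations to `x`-representations -/

theorem exists_hasXDeg_of_xyRat (hW : IsShort W) (hΔ : W.Δ ≠ 0) (α : W.Point →+ W.Point)
    (h : XYRat W α) : ∃ d : ℕ, HasXDeg W α d := by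
  rcases h with rfl | ⟨a, b, e, S, hS⟩
  · exact ⟨0, hasXDeg_zero⟩
  · have he : e ≠ 0 := by
      intro he
      have : Infinite k := IsAlgClosed.instInfinite
      obtain ⟨x, hx⟩ := Infinite.exists_notMem_finset S
      obtain ⟨y, hy⟩ := exists_y hW hΔ x
      exact (hS x y hy hx).1 (by rw [he, eval_zero])
    have hg : GCDMonoid.gcd a e ≠ 0 := gcd_ne_zero_of_right he
    have ha : GCDMonoid.gcd a e * (a / GCDMonoid.gcd a e) = a :=
      EuclideanDomain.mul_div_cancel' hg (gcd_dvd_left _ _)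
    have he' : GCDMonoid.gcd a e * (e / GCDMonoid.gcd a e) = e :=
      EuclideanDomain.mul_div_cancel' hg (gcd_dvd_right _ _)
    refine ⟨_, a / GCDMonoid.gcd a e, e / GCDMonoid.gcd a e,
      ⟨isCoprime_div_gcd_div_gcd he, S, ?_⟩, rfl⟩
    intro x y hxy hx
    obtain ⟨hex, h', hP⟩ := hS x y hxy hx
    have hax : (GCDMonoid.gcd a e).eval x * (a / GCDMonoid.gcd a e).eval x = a.eval x := by
      rw [← eval_mul, ha]
    have hex' : (GCDMonoid.gcd a e).eval x * (e / GCDMonoid.gcd a e).eval x = e.eval x := by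
      rw [← eval_mul, he']
    have hg0 : (GCDMonoid.gcd a e).eval x ≠ 0 := by
      intro h0
      rw [h0, zero_mul] at hex'
      exact hex hex'.symm
    have hD0 : (e / GCDMonoid.gcd a e).eval x ≠ 0 := by
      intro h0
      rw [h0, mul_zero] at hex'
      exact hex hex'.symm
    refine ⟨(e / GCDMonoid.gcd a e).eval x, hD0, ?_, ?_⟩
    · rw [hP]
      simp only [Point.xRep_some, Matrix.cons_val_zero]
      rw [← hax, ← hex']
      field_simp
    · rw [hP]
      simp

/-! ### The parallelogram law -/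

omit [IsAlgClosed k] [DecidableEq k] in
theorem g0_scale (r s t u : k) :
    XAddSub.g0 W (r * s) (r * t) (r * u) = r ^ 2 * XAddSub.g0 W s t u := by
  unfold XAddSub.g0; ring

omit [IsAlgClosed k] [DecidableEq k] in
theorem g1_scale (r s t u : k) :
    XAddSub.g1 W (r * s) (r * t) (r * u) = r ^ 2 * XAddSub.g1 W s t u := by
  unfold XAddSub.g1; ring

omit [IsAlgClosed k] [DecidableEq k] in
theorem g2_scale (r s t u : k) :
    XAddSub.g2 (r * s) (r * t) (r * u) = r ^ 2 * XAddSub.g2 s t u := by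
  unfold XAddSub.g2; ring

omit [IsAlgClosed k] [DecidableEq k] in
theorem eval_G0 (s t u : k[X]) (x : k) :
    (HeightLaw.G0 W s t u).eval x = XAddSub.g0 W (s.eval x) (t.eval x) (u.eval x) := by
  simp [HeightLaw.G0, XAddSub.g0]

omit [IsAlgClosed k] [DecidableEq k] in
theorem eval_G1 (s t u : k[X]) (x : k) :
    (HeightLaw.G1 W s t u).eval x = XAddSub.g1 W (s.eval x) (t.eval x) (u.eval x) := by
  simp [HeightLaw.G1, XAddSub.g1]

omit [IsAlgClosed k] [DecidableEq k] in
theorem eval_G2 (s t u : k[X]) (x : k) :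
    (HeightLaw.G2 s t u).eval x = XAddSub.g2 (s.eval x) (t.eval x) (u.eval x) := by
  simp [HeightLaw.G2, XAddSub.g2]

theorem para (hW : IsShort W) (hΔ : W.Δ ≠ 0) (α β : W.Point →+ W.Point) (a b p m : ℕ)
    (ha : HasXDeg W α a) (hb : HasXDeg W β b) (hp : HasXDeg W (α + β) p)
    (hm : HasXDeg W (α - β) m) : p + m = 2 * a + 2 * b := by
  obtain ⟨p₁, q₁, ⟨h₁, S₁, hS₁⟩, rfl⟩ := ha
  obtain ⟨p₂, q₂, ⟨h₂, S₂, hS₂⟩, rfl⟩ := hb
  obtain ⟨p₃, q₃, ⟨h₃, S₃, hS₃⟩, rfl⟩ := hp
  obtain ⟨p₄, q₄, ⟨h₄, S₄, hS₄⟩, rfl⟩ := hm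
  -- pointwise data
  have pt : ∀ x : k, x ∉ S₁ ∪ S₂ ∪ S₃ ∪ S₄ → ∃ r c : k,
      XAddSub.g0 W ((p₁ * p₂).eval x) ((p₁ * q₂ + q₁ * p₂).eval x) ((q₁ * q₂).eval x)
        = r * (p₃ * p₄).eval x ∧
      XAddSub.g1 W ((p₁ * p₂).eval x) ((p₁ * q₂ + q₁ * p₂).eval x) ((q₁ * q₂).eval x)
        = r * (p₃ * q₄ + q₃ * p₄).eval x ∧
      XAddSub.g2 ((p₁ * p₂).eval x) ((p₁ * q₂ + q₁ * p₂).eval x) ((q₁ * q₂).eval x)
        = r * (q₃ * q₄).eval x ∧ c = c := by
    intro x hx
    simp only [Finset.mem_union, not_or] at hx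
    obtain ⟨⟨⟨hx1, hx2⟩, hx3⟩, hx4⟩ := hx
    obtain ⟨y, hy⟩ := exists_y hW hΔ x
    obtain ⟨c₁, hc₁, e1, f1⟩ := hS₁ x y hy hx1
    obtain ⟨c₂, hc₂, e2, f2⟩ := hS₂ x y hy hx2
    obtain ⟨c₃, hc₃, e3, f3⟩ := hS₃ x y hy hx3
    obtain ⟨c₄, hc₄, e4, f4⟩ := hS₄ x y hy hx4
    obtain ⟨c, hc, l0, l1, l2⟩ := XAddSub.law hΔ (α (Point.some x y hy)) (β (Point.some x y hy))
    rw [AddMonoidHom.add_apply] at e3 f3
    rw [AddMonoidHom.sub_apply] at e4 f4
    refine ⟨(c₁ * c₂) ^ 2 * c / (c₃ * c₄), 0, ?_, ?_, ?_, rfl⟩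
    · rw [eval_mul, eval_add, eval_mul, eval_mul, eval_mul, eval_mul, e1, e2, f1, f2, e3, e4,
        show c₁ * (α (Point.some x y hy)).xRep 0 * (c₂ * (β (Point.some x y hy)).xRep 0)
          = (c₁ * c₂) * ((α (Point.some x y hy)).xRep 0 * (β (Point.some x y hy)).xRep 0) by ring,
        show c₁ * (α (Point.some x y hy)).xRep 0 * (c₂ * (β (Point.some x y hy)).xRep 1)
            + c₁ * (α (Point.some x y hy)).xRep 1 * (c₂ * (β (Point.some x y hy)).xRep 0)
          = (c₁ * c₂) * ((α (Point.some x y hy)).xRep 0 * (β (Point.some x y hy)).xRep 1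
            + (α (Point.some x y hy)).xRep 1 * (β (Point.some x y hy)).xRep 0) by ring,
        show c₁ * (α (Point.some x y hy)).xRep 1 * (c₂ * (β (Point.some x y hy)).xRep 1)
          = (c₁ * c₂) * ((α (Point.some x y hy)).xRep 1 * (β (Point.some x y hy)).xRep 1) by ring,
        g0_scale, l0]
      field_simp
    · rw [eval_mul, eval_add, eval_mul, eval_mul, eval_mul, eval_add, eval_mul, eval_mul,
        e1, e2, f1, f2, e3, e4, f3, f4,
        show c₁ * (α (Point.some x y hy)).xRep 0 * (c₂ * (β (Point.some x y hy)).xRep 0)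
          = (c₁ * c₂) * ((α (Point.some x y hy)).xRep 0 * (β (Point.some x y hy)).xRep 0) by ring,
        show c₁ * (α (Point.some x y hy)).xRep 0 * (c₂ * (β (Point.some x y hy)).xRep 1)
            + c₁ * (α (Point.some x y hy)).xRep 1 * (c₂ * (β (Point.some x y hy)).xRep 0)
          = (c₁ * c₂) * ((α (Point.some x y hy)).xRep 0 * (β (Point.some x y hy)).xRep 1
            + (α (Point.some x y hy)).xRep 1 * (β (Point.some x y hy)).xRep 0) by ring,
        show c₁ * (α (Point.some x y hy)).xRep 1 * (c₂ * (β (Point.some x y hy)).xRep 1)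
          = (c₁ * c₂) * ((α (Point.some x y hy)).xRep 1 * (β (Point.some x y hy)).xRep 1) by ring,
        g1_scale, l1]
      field_simp
    · rw [eval_mul, eval_add, eval_mul, eval_mul, eval_mul, eval_mul, e1, e2, f1, f2, f3, f4,
        show c₁ * (α (Point.some x y hy)).xRep 0 * (c₂ * (β (Point.some x y hy)).xRep 0)
          = (c₁ * c₂) * ((α (Point.some x y hy)).xRep 0 * (β (Point.some x y hy)).xRep 0) by ring,
        show c₁ * (α (Point.some x y hy)).xRep 0 * (c₂ * (β (Point.some x y hy)).xRep 1)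
            + c₁ * (α (Point.some x y hy)).xRep 1 * (c₂ * (β (Point.some x y hy)).xRep 0)
          = (c₁ * c₂) * ((α (Point.some x y hy)).xRep 0 * (β (Point.some x y hy)).xRep 1
            + (α (Point.some x y hy)).xRep 1 * (β (Point.some x y hy)).xRep 0) by ring,
        show c₁ * (α (Point.some x y hy)).xRep 1 * (c₂ * (β (Point.some x y hy)).xRep 1)
          = (c₁ * c₂) * ((α (Point.some x y hy)).xRep 1 * (β (Point.some x y hy)).xRep 1) by ring,
        g2_scale, l2]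
      field_simp
  have : Infinite k := IsAlgClosed.instInfinite
  have h01 : HeightLaw.G0 W (p₁ * p₂) (p₁ * q₂ + q₁ * p₂) (q₁ * q₂) * (p₃ * q₄ + q₃ * p₄) =
      HeightLaw.G1 W (p₁ * p₂) (p₁ * q₂ + q₁ * p₂) (q₁ * q₂) * (p₃ * p₄) := by
    apply poly_eq_of_cofinite (S₁ ∪ S₂ ∪ S₃ ∪ S₄)
    intro x hx
    obtain ⟨r, c, k0, k1, k2, -⟩ := pt x hx
    rw [eval_mul (p := HeightLaw.G0 W _ _ _), eval_mul (p := HeightLaw.G1 W _ _ _), eval_G0, eval_G1,
      k0, k1]
    ring
  have h02 : HeightLaw.G0 W (p₁ * p₂) (p₁ * q₂ + q₁ * p₂) (q₁ * q₂) * (q₃ * q₄) =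
      HeightLaw.G2 (p₁ * p₂) (p₁ * q₂ + q₁ * p₂) (q₁ * q₂) * (p₃ * p₄) := by
    apply poly_eq_of_cofinite (S₁ ∪ S₂ ∪ S₃ ∪ S₄)
    intro x hx
    obtain ⟨r, c, k0, k1, k2, -⟩ := pt x hx
    rw [eval_mul (p := HeightLaw.G0 W _ _ _), eval_mul (p := HeightLaw.G2 _ _ _), eval_G0, eval_G2,
      k0, k2]
    ring
  have h12 : HeightLaw.G1 W (p₁ * p₂) (p₁ * q₂ + q₁ * p₂) (q₁ * q₂) * (q₃ * q₄) =
      HeightLaw.G2 (p₁ * p₂) (p₁ * q₂ + q₁ * p₂) (q₁ * q₂) * (p₃ * q₄ + q₃ * p₄) := by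
    apply poly_eq_of_cofinite (S₁ ∪ S₂ ∪ S₃ ∪ S₄)
    intro x hx
    obtain ⟨r, c, k0, k1, k2, -⟩ := pt x hx
    rw [eval_mul (p := HeightLaw.G1 W _ _ _), eval_mul (p := HeightLaw.G2 _ _ _), eval_G1, eval_G2,
      k1, k2]
    ring
  have := HeightLaw.ht_add_of_proportional W hΔ h₁ h₂ h₃ h₄ h01 h02 h12
  simpa [HeightLaw.ht] using this

end Core

/-! ### The contracts -/

universe u

theorem xyToXStmt : XYtoXStmt.{u} :=
  fun _ _ _ _ _ hW hΔ α h => Core.exists_hasXDeg_of_xyRat hW hΔ α h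

theorem uniqStmt : UniqStmt.{u} :=
  fun _ _ _ _ _ hW hΔ α d d' h h' => Core.uniq hW hΔ α d d' h h'

theorem zeroStmt : ZeroStmt.{u} :=
  fun _ _ _ _ _ hW hΔ α h => Core.zero_of_deg hW hΔ α h

theorem paraStmt : ParaStmt.{u} :=
  fun _ _ _ _ _ hW hΔ α β a b p m ha hb hp hm => Core.para hW hΔ α β a b p m ha hb hp hm

end Fermat.Agent.S52.M2
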