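/-
S52 / [M2-CORE] — the quadratic-form algebra: a function on a subgroup satisfying the
parallelogram law is a quadratic form; with the six values of Manin's degree function on
`1, φ, φ²` this gives `d (φ² - a φ + ℓ) = 0`.
Owner: helper29.  Mathlib only.
-/
import Mathlib

set_option autoImplicit false

namespace Fermat.Agent.S52.M2.Quad

variable {G : Type*} [AddCommGroup G] (S : AddSubgroup G) (d : G → ℤ)

/-- the polar form -/
def B (x y : G) : ℤ := d (x + y) - d x - d y

variable {S d}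

section
variable (hpar : ∀ x ∈ S, ∀ y ∈ S, d (x + y) + d (x - y) = 2 * d x + 2 * d y)
include hpar

theorem d_zero : d 0 = 0 := by
  have := hpar 0 S.zero_mem 0 S.zero_mem
  simp only [add_zero, sub_zero] at this
  linarith

theorem d_neg {x : G} (hx : x ∈ S) : d (-x) = d x := by
  have := hpar 0 S.zero_mem x hx
  rw [zero_add, zero_sub, d_zero hpar] at this
  linarith

theorem d_two {x : G} (hx : x ∈ S) : d (x + x) = 4 * d x := by
  have := hpar x hx x hx
  rw [sub_self, d_zero hpar] at this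
  linarith

/-- Fréchet's identity. -/
theorem frechet {x y z : G} (hx : x ∈ S) (hy : y ∈ S) (hz : z ∈ S) :
    d (x + y + z) = d (x + y) + d (x + z) + d (y + z) - d x - d y - d z := by
  have h1 := hpar (x + y) (S.add_mem hx hy) z hz
  have h2 := hpar x hx (y - z) (S.sub_mem hy hz)
  have h3 := hpar (x + z) (S.add_mem hx hz) y hy
  have h4 := hpar y hy z hz
  rw [show x + (y - z) = x + y - z by abel, show x - (y - z) = x + z - y by abel] at h2
  rw [show x + z + y = x + y + z by abel] at h3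
  linarith

theorem B_add_left {x z y : G} (hx : x ∈ S) (hz : z ∈ S) (hy : y ∈ S) :
    B d (x + z) y = B d x y + B d z y := by
  unfold B
  have := frechet hpar hx hz hy
  rw [show x + z + y = x + z + y from rfl] at this
  linarith

omit hpar in
theorem B_comm (x y : G) : B d x y = B d y x := by
  unfold B
  rw [add_comm x y]
  ring

theorem B_zsmul_left (n : ℤ) {x y : G} (hx : x ∈ S) (hy : y ∈ S) :
    B d (n • x) y = n * B d x y := by
  let f : S →+ ℤ := AddMonoidHom.mk' (fun x : S => B d (x : G) y)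
    (fun a b => by
      have := B_add_left hpar a.2 b.2 hy
      simpa using this)
  have := map_zsmul f n ⟨x, hx⟩
  simpa [f] using this

theorem B_zsmul_right (n : ℤ) {x y : G} (hx : x ∈ S) (hy : y ∈ S) :
    B d x (n • y) = n * B d x y := by
  rw [B_comm, B_zsmul_left hpar n hy hx, B_comm]

theorem B_self {x : G} (hx : x ∈ S) : B d x x = 2 * d x := by
  unfold B
  rw [d_two hpar hx]
  ring

theorem d_zsmul (n : ℤ) {x : G} (hx : x ∈ S) : d (n • x) = n ^ 2 * d x := by
  have h1 := B_self hpar (S.zsmul_mem hx n)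
  rw [B_zsmul_left hpar n hx (S.zsmul_mem hx n), B_zsmul_right hpar n hx hx,
    B_self hpar hx] at h1
  linarith

theorem B_neg_right {x y : G} (hx : x ∈ S) (hy : y ∈ S) : B d x (-y) = - B d x y := by
  have := B_zsmul_right hpar (-1) hx hy
  simpa using this

/-- value of the polar form from the value on a difference -/
theorem B_eq_of_sub {x y : G} (hx : x ∈ S) (hy : y ∈ S) : B d x y = d x + d y - d (x - y) := by
  have h := B_neg_right hpar hx hy
  unfold B at h ⊢
  rw [d_neg hpar hy, ← sub_eq_add_neg] at h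
  linarith

theorem d_add_three {x y z : G} (hx : x ∈ S) (hy : y ∈ S) (hz : z ∈ S) :
    d (x + y + z) = d x + d y + d z + B d x y + B d x z + B d y z := by
  have := frechet hpar hx hy hz
  unfold B
  linarith

/-- **The quadratic relation.** -/
theorem quad_zero {e₁ e₂ e₃ : G} (h₁ : e₁ ∈ S) (h₂ : e₂ ∈ S) (h₃ : e₃ ∈ S) (ℓ a : ℤ)
    (d₃ : d e₃ = 1) (d₂ : d e₂ = ℓ) (d₁ : d e₁ = ℓ ^ 2)
    (d₂₃ : d (e₂ - e₃) = ℓ + 1 - a) (d₁₂ : d (e₁ - e₂) = ℓ * (ℓ + 1 - a))
    (d₁₃ : d (e₁ - e₃) = (ℓ + 1 - a) * (ℓ + 1 + a)) :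
    d (e₁ - a • e₂ + ℓ • e₃) = 0 := by
  have hv : (-a) • e₂ ∈ S := S.zsmul_mem h₂ _
  have hw : ℓ • e₃ ∈ S := S.zsmul_mem h₃ _
  have b12 : B d e₁ e₂ = ℓ * a := by
    rw [B_eq_of_sub hpar h₁ h₂, d₁, d₂, d₁₂]; ring
  have b13 : B d e₁ e₃ = a ^ 2 - 2 * ℓ := by
    rw [B_eq_of_sub hpar h₁ h₃, d₁, d₃, d₁₃]; ring
  have b23 : B d e₂ e₃ = a := by
    rw [B_eq_of_sub hpar h₂ h₃, d₂, d₃, d₂₃]; ring
  rw [show e₁ - a • e₂ + ℓ • e₃ = e₁ + (-a) • e₂ + ℓ • e₃ by rw [neg_smul]; abel,
    d_add_three hpar h₁ hv hw, d_zsmul hpar _ h₂, d_zsmul hpar _ h₃,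
    B_zsmul_right hpar _ h₁ h₂, B_zsmul_right hpar _ h₁ h₃,
    B_zsmul_left hpar _ h₂ hw, B_zsmul_right hpar _ h₂ h₃, b12, b13, b23, d₁, d₂, d₃]
  ring

end

end Fermat.Agent.S52.M2.Quad
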