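/-
S52 / [M2-CORE] — assembly of the Frobenius quadratic equation from the leaf contracts
(hypothesis form).  Owner: helper29.
-/
import Mathlib
import Fermat.Agent.S52.M2.Defs
import Fermat.Agent.S52.M2.Plan
import Fermat.Agent.S52.M2.Basic
import Fermat.Agent.S52.M2.Core
import Fermat.Agent.S52.M2.Quad

set_option autoImplicit false

namespace Fermat.Agent.S52.M2

open Polynomial WeierstrassCurve WeierstrassCurve.Affine

universe u

namespace Assembly

variable {k : Type u} [Field k] [IsAlgClosed k] [DecidableEq k] {W : Affine k}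

/-- the degree function (junk value `0` where no generic `x`-representation exists) -/
noncomputable def dfun (W : Affine k) (α : W.Point →+ W.Point) : ℤ :=
  open Classical in if h : ∃ d : ℕ, HasXDeg W α d then (h.choose : ℤ) else 0

theorem dfun_eq (hW : IsShort W) (hΔ : W.Δ ≠ 0) {α : W.Point →+ W.Point} {n : ℕ}
    (h : HasXDeg W α n) : dfun W α = n := by
  unfold dfun
  have hex : ∃ d : ℕ, HasXDeg W α d := ⟨n, h⟩
  rw [dif_pos hex]
  exact_mod_cast Core.uniq hW hΔ α _ _ hex.choose_spec h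

end Assembly

open Assembly in
/-- The abstract form: on a short curve, from the closure properties and the six degrees. -/
theorem quad_of_data {k : Type u} [Field k] [IsAlgClosed k] [DecidableEq k] {W : Affine k}
    (hW : IsShort W) (hΔ : W.Δ ≠ 0)
    (hAdd : ∀ α β : W.Point →+ W.Point, XYRat W α → XYRat W β → XYRat W (α + β))
    (hNeg : ∀ α : W.Point →+ W.Point, XYRat W α → XYRat W (-α))
    (hComp : ∀ (α β : W.Point →+ W.Point) (a b : ℕ), HasXDeg W α a → HasXDeg W β b → 0 < b →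
      HasXDeg W (α.comp β) (a * b))
    (φ : W.Point →+ W.Point) (ℓ n1 : ℕ) (hℓpos : 0 < ℓ)
    (xy1 : XYRat W (AddMonoidHom.id _)) (d1 : HasXDeg W (AddMonoidHom.id _) 1)
    (xyφ : XYRat W φ) (dφ : HasXDeg W φ ℓ)
    (xyφ2 : XYRat W (φ.comp φ)) (dφ2 : HasXDeg W (φ.comp φ) (ℓ ^ 2))
    (hH : HasXDeg W (φ - AddMonoidHom.id _) n1) (P : W.Point) :
    φ (φ P) - ((ℓ : ℤ) + 1 - (n1 : ℤ)) • φ P + (ℓ : ℤ) • P = 0 := by
  -- the subgroup of `xy`-rational endomorphisms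
  let S : AddSubgroup (W.Point →+ W.Point) :=
    { carrier := {α | XYRat W α}
      zero_mem' := Or.inl rfl
      add_mem' := fun {α β} hα hβ => hAdd α β hα hβ
      neg_mem' := fun {α} hα => hNeg α hα }
  have exd : ∀ α ∈ S, ∃ n : ℕ, HasXDeg W α n ∧ dfun W α = n := by
    intro α hα
    obtain ⟨n, hn⟩ := Core.exists_hasXDeg_of_xyRat hW hΔ α hα
    exact ⟨n, hn, dfun_eq hW hΔ hn⟩
  have hpar : ∀ x ∈ S, ∀ y ∈ S,
      dfun W (x + y) + dfun W (x - y) = 2 * dfun W x + 2 * dfun W y := by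
    intro x hx y hy
    obtain ⟨a, ha, ea⟩ := exd x hx
    obtain ⟨b, hb, eb⟩ := exd y hy
    obtain ⟨p, hp, ep⟩ := exd (x + y) (S.add_mem hx hy)
    obtain ⟨m, hm, em⟩ := exd (x - y) (S.sub_mem hx hy)
    have := Core.para hW hΔ x y a b p m ha hb hp hm
    rw [ea, eb, ep, em]
    exact_mod_cast this
  have m1 : AddMonoidHom.id W.Point ∈ S := xy1
  have mφ : φ ∈ S := xyφ
  have mφ2 : φ.comp φ ∈ S := xyφ2
  -- the degree of `φ + 1`
  obtain ⟨dp, hdp, -⟩ := exd (φ + AddMonoidHom.id _) (S.add_mem mφ m1)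
  have hsum : dp + n1 = 2 * ℓ + 2 * 1 :=
    Core.para hW hΔ φ (AddMonoidHom.id _) ℓ 1 dp n1 dφ d1 hdp hH
  -- the two composites
  have c12 : φ.comp φ - φ = (φ - AddMonoidHom.id _).comp φ := by
    ext Q
    simp
  have c13 : φ.comp φ - AddMonoidHom.id _ = (φ - AddMonoidHom.id _).comp (φ + AddMonoidHom.id _) := by
    ext Q
    simp only [AddMonoidHom.sub_apply, AddMonoidHom.comp_apply, AddMonoidHom.add_apply,
      AddMonoidHom.id_apply, map_add]
    abel
  have e12 : HasXDeg W (φ.comp φ - φ) (n1 * ℓ) := by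
    rw [c12]
    exact hComp (φ - AddMonoidHom.id _) φ n1 ℓ hH dφ hℓpos
  have e13 : HasXDeg W (φ.comp φ - AddMonoidHom.id _) (n1 * dp) := by
    rw [c13]
    rcases Nat.eq_zero_or_pos dp with h0 | hpos
    · have hz : φ + AddMonoidHom.id _ = 0 := Core.zero_of_deg hW hΔ _ (h0 ▸ hdp)
      rw [hz, h0, mul_zero, AddMonoidHom.comp_zero]
      exact Core.hasXDeg_zero
    · exact hComp (φ - AddMonoidHom.id _) (φ + AddMonoidHom.id _) n1 dp hH hdp hpos
  have key := Quad.quad_zero (S := S) (d := dfun W) hpar mφ2 mφ m1 (ℓ : ℤ)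
    ((ℓ : ℤ) + 1 - (n1 : ℤ))
    (dfun_eq hW hΔ d1) (dfun_eq hW hΔ dφ) (by rw [dfun_eq hW hΔ dφ2]; push_cast; ring)
    (by rw [dfun_eq hW hΔ hH]; ring)
    (by rw [dfun_eq hW hΔ e12]; push_cast; ring)
    (by
      rw [dfun_eq hW hΔ e13]
      have : (dp : ℤ) = 2 * ℓ + 2 - n1 := by
        have := congrArg (Nat.cast : ℕ → ℤ) hsum
        push_cast at this
        linarith
      push_cast
      rw [this]
      ring)
  have mψ : φ.comp φ - ((ℓ : ℤ) + 1 - (n1 : ℤ)) • φ + (ℓ : ℤ) • AddMonoidHom.id _ ∈ S :=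
    S.add_mem (S.sub_mem mφ2 (S.zsmul_mem mφ _)) (S.zsmul_mem m1 _)
  obtain ⟨n, hn, en⟩ := exd _ mψ
  rw [key] at en
  have hn0 : n = 0 := by exact_mod_cast en.symm
  have hψ := Core.zero_of_deg hW hΔ _ (hn0 ▸ hn)
  have := congrArg (fun f : W.Point →+ W.Point => f P) hψ
  simpa using this

/-- **[M2] from its leaf contracts.** -/
theorem frobQuad_of (hAdd : XYAddStmt.{u}) (hNeg : XYNegStmt.{u}) (hComp : CompStmt.{u})
    (hFrob : FrobStmt.{u}) (hHasse : HasseStmt.{u}) : FrobQuadStmt.{u} := by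
  intro ℓ _ E0 k _ _ _ _ h1 h2 h3 hΔ0 P
  have hW : IsShort (E0.toAffine⁄k) := by
    refine ⟨?_, ?_, ?_⟩
    · show (E0.map (algebraMap (ZMod ℓ) k)).a₁ = 0
      rw [WeierstrassCurve.map_a₁, h1, map_zero]
    · show (E0.map (algebraMap (ZMod ℓ) k)).a₂ = 0
      rw [WeierstrassCurve.map_a₂, h2, map_zero]
    · show (E0.map (algebraMap (ZMod ℓ) k)).a₃ = 0
      rw [WeierstrassCurve.map_a₃, h3, map_zero]
  have hΔ : (E0.toAffine⁄k).Δ ≠ 0 := by
    show (E0.map (algebraMap (ZMod ℓ) k)).Δ ≠ 0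
    rw [WeierstrassCurve.map_Δ]
    exact fun h => hΔ0 ((algebraMap (ZMod ℓ) k).injective (h.trans (map_zero _).symm))
  obtain ⟨xy1, d1, xyφ, dφ, xyφ2, dφ2⟩ := hFrob ℓ E0 k h1 h2 h3 hΔ0
  exact quad_of_data hW hΔ (hAdd k _ hW hΔ) (hNeg k _ hW hΔ) (hComp k _ hW hΔ)
    (frobPt ℓ E0 k) ℓ _ (Fact.out : ℓ.Prime).pos xy1 d1 xyφ dφ xyφ2 dφ2
    (hHasse ℓ E0 k h1 h2 h3 hΔ0) P

end Fermat.Agent.S52.M2
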