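/-
S52 / [M2-COMP] — multiplicativity of the `x`-degree under composition.  Owner: helper66.

If `α` has the generic `x`-representation `(Nα, Dα)` of degree `a` and `β` has `(Nβ, Dβ)` of
degree `b > 0`, then `α ∘ β` has the generic `x`-representation
`(Nα^h(Nβ, Dβ), Dα^h(Nβ, Dβ))`, where `F^h(u, v) = ∑ i ≤ a, coeff F i · u ^ i · v ^ (a - i)`,
and its degree is `a * b`.
-/
import Mathlib
import Fermat.Agent.S52.M2.Defs
import Fermat.Agent.S52.M2.Plan

set_option autoImplicit false

namespace Fermat.Agent.S52.M2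

open Polynomial WeierstrassCurve WeierstrassCurve.Affine

universe u

namespace Comp

variable {k : Type*} [Field k]

/-- Value of the binary form of degree `a` attached to `F` at a pair of scalars. -/
noncomputable def homV (F : k[X]) (a : ℕ) (u v : k) : k :=
  ∑ i ∈ Finset.range (a + 1), F.coeff i * u ^ i * v ^ (a - i)

/-- Value of the binary form of degree `a` attached to `F` at a pair of polynomials. -/
noncomputable def homP (F : k[X]) (a : ℕ) (p q : k[X]) : k[X] :=
  ∑ i ∈ Finset.range (a + 1), C (F.coeff i) * p ^ i * q ^ (a - i)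

lemma eval_homP (F : k[X]) (a : ℕ) (p q : k[X]) (x : k) :
    (homP F a p q).eval x = homV F a (p.eval x) (q.eval x) := by
  simp [homP, homV, eval_finsetSum]

lemma natDegree_term_le (c : k) {p q : k[X]} {a b i : ℕ} (hp : p.natDegree ≤ b)
    (hq : q.natDegree ≤ b) (hi : i ≤ a) :
    (C c * p ^ i * q ^ (a - i)).natDegree ≤ a * b := by
  have h1 : (p ^ i).natDegree ≤ i * b := natDegree_pow_le_of_le i hp
  have h2 : (q ^ (a - i)).natDegree ≤ (a - i) * b := natDegree_pow_le_of_le (a - i) hq
  have h3 : (C c * p ^ i).natDegree ≤ i * b :=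
    (natDegree_C_mul_le c (p ^ i)).trans h1
  have h4 : (C c * p ^ i * q ^ (a - i)).natDegree ≤ i * b + (a - i) * b :=
    natDegree_mul_le_of_le h3 h2
  have h5 : i * b + (a - i) * b = a * b := by
    rw [← add_mul, Nat.add_sub_cancel' hi]
  omega

lemma natDegree_homP_le (F : k[X]) {p q : k[X]} {a b : ℕ} (hp : p.natDegree ≤ b)
    (hq : q.natDegree ≤ b) : (homP F a p q).natDegree ≤ a * b := by
  unfold homP
  refine natDegree_sum_le_of_forall_le _ _ ?_
  intro i hi
  exact natDegree_term_le _ hp hq (Nat.lt_succ_iff.mp (Finset.mem_range.mp hi))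

lemma coeff_term (c : k) {p q : k[X]} {a b i : ℕ} (hp : p.natDegree ≤ b)
    (hq : q.natDegree ≤ b) (hi : i ≤ a) :
    (C c * p ^ i * q ^ (a - i)).coeff (a * b) = c * p.coeff b ^ i * q.coeff b ^ (a - i) := by
  have h1 : (p ^ i).natDegree ≤ i * b := natDegree_pow_le_of_le i hp
  have h2 : (q ^ (a - i)).natDegree ≤ (a - i) * b := natDegree_pow_le_of_le (a - i) hq
  have h3 : (C c * p ^ i).natDegree ≤ i * b :=
    (natDegree_C_mul_le c (p ^ i)).trans h1
  have h5 : a * b = i * b + (a - i) * b := by
    rw [← add_mul, Nat.add_sub_cancel' hi]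
  rw [h5, coeff_mul_add_eq_of_natDegree_le h3 h2, coeff_C_mul,
    coeff_pow_of_natDegree_le hp, coeff_pow_of_natDegree_le hq]

lemma coeff_homP (F : k[X]) {p q : k[X]} {a b : ℕ} (hp : p.natDegree ≤ b)
    (hq : q.natDegree ≤ b) :
    (homP F a p q).coeff (a * b) = homV F a (p.coeff b) (q.coeff b) := by
  unfold homP homV
  rw [finsetSum_coeff]
  refine Finset.sum_congr rfl ?_
  intro i hi
  exact coeff_term _ hp hq (Nat.lt_succ_iff.mp (Finset.mem_range.mp hi))

/-- On the chart `v ≠ 0` the form is `v ^ a * F (u / v)`. -/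
lemma homV_of_ne (F : k[X]) {a : ℕ} (hF : F.natDegree ≤ a) (u : k) {v : k} (hv : v ≠ 0) :
    homV F a u v = v ^ a * F.eval (u / v) := by
  unfold homV
  rw [eval_eq_sum_range' (Nat.lt_succ_of_le hF), Finset.mul_sum]
  refine Finset.sum_congr rfl ?_
  intro i hi
  have hi' : i ≤ a := Nat.lt_succ_iff.mp (Finset.mem_range.mp hi)
  have : v ^ a = v ^ (a - i) * v ^ i := by rw [← pow_add, Nat.sub_add_cancel hi']
  rw [this, div_pow]
  field_simp

/-- At the point at infinity `v = 0` the form is `coeff F a * u ^ a`. -/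
lemma homV_zero_right (F : k[X]) (a : ℕ) (u : k) :
    homV F a u 0 = F.coeff a * u ^ a := by
  unfold homV
  rw [Finset.sum_eq_single a]
  · simp
  · intro i hi hia
    have hi' : i < a := lt_of_le_of_ne (Nat.lt_succ_iff.mp (Finset.mem_range.mp hi)) hia
    have : a - i ≠ 0 := by omega
    simp [this]
  · intro h
    exact absurd (Finset.mem_range.mpr (Nat.lt_succ_self a)) h

/-- A coprime pair has a nonzero coefficient in degree `max natDegree`. -/
lemma coeff_max_ne_zero {p q : k[X]} (h : IsCoprime p q) {a : ℕ}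
    (ha : max p.natDegree q.natDegree = a) : p.coeff a ≠ 0 ∨ q.coeff a ≠ 0 := by
  by_contra hcon
  push Not at hcon
  obtain ⟨h1, h2⟩ := hcon
  have hp : p.natDegree ≤ a := ha ▸ le_max_left _ _
  have hq : q.natDegree ≤ a := ha ▸ le_max_right _ _
  have aux : ∀ r : k[X], r.natDegree ≤ a → r.coeff a = 0 → r = 0 ∨ r.natDegree < a := by
    intro r hr hc
    by_cases hr0 : r = 0
    · exact Or.inl hr0
    · right
      refine lt_of_le_of_ne hr ?_
      intro heq
      rw [← heq] at hc
      exact hr0 (leadingCoeff_eq_zero.mp hc)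
  rcases aux p hp h1 with hp0 | hp'
  · rcases aux q hq h2 with hq0 | hq'
    · rw [hp0, hq0] at h
      exact not_isCoprime_zero_zero h
    · have : a = q.natDegree := by rw [← ha]; simp [hp0]
      omega
  · rcases aux q hq h2 with hq0 | hq'
    · have : a = p.natDegree := by rw [← ha]; simp [hq0]
      omega
    · omega

/-- The binary forms of a coprime pair have no common zero on the projective line. -/
lemma homV_ne_zero {F G : k[X]} (h : IsCoprime F G) {a : ℕ}
    (ha : max F.natDegree G.natDegree = a) {u v : k} (huv : u ≠ 0 ∨ v ≠ 0) :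
    homV F a u v ≠ 0 ∨ homV G a u v ≠ 0 := by
  have hF : F.natDegree ≤ a := ha ▸ le_max_left _ _
  have hG : G.natDegree ≤ a := ha ▸ le_max_right _ _
  by_cases hv : v = 0
  · subst hv
    have hu : u ≠ 0 := by
      rcases huv with hu | hv
      · exact hu
      · exact absurd rfl hv
    rw [homV_zero_right, homV_zero_right]
    rcases coeff_max_ne_zero h ha with h1 | h1
    · exact Or.inl (mul_ne_zero h1 (pow_ne_zero _ hu))
    · exact Or.inr (mul_ne_zero h1 (pow_ne_zero _ hu))
  · rw [homV_of_ne F hF u hv, homV_of_ne G hG u hv]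
    by_contra hcon
    push Not at hcon
    obtain ⟨h1, h2⟩ := hcon
    have hvn : v ^ a ≠ 0 := pow_ne_zero _ hv
    have e1 : F.eval (u / v) = 0 := by
      rcases mul_eq_zero.mp h1 with h | h
      · exact absurd h hvn
      · exact h
    have e2 : G.eval (u / v) = 0 := by
      rcases mul_eq_zero.mp h2 with h | h
      · exact absurd h hvn
      · exact h
    obtain ⟨A, B, hAB⟩ := h
    have := congrArg (Polynomial.eval (u / v)) hAB
    simp [e1, e2] at this

/-- A coprime pair of polynomials has no common root. -/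
lemma eval_ne_zero_of_isCoprime {p q : k[X]} (h : IsCoprime p q) (x : k) :
    p.eval x ≠ 0 ∨ q.eval x ≠ 0 := by
  by_contra hcon
  push Not at hcon
  obtain ⟨A, B, hAB⟩ := h
  have := congrArg (Polynomial.eval x) hAB
  simp [hcon.1, hcon.2] at this

/-- Coprimality of the composed pair (over an algebraically closed field). -/
lemma isCoprime_homP [IsAlgClosed k] {F G p q : k[X]} (h : IsCoprime F G) (hpq : IsCoprime p q)
    {a : ℕ} (ha : max F.natDegree G.natDegree = a) :
    IsCoprime (homP F a p q) (homP G a p q) := by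
  refine (Polynomial.isCoprime_iff_aeval_ne_zero_of_isAlgClosed (k := k) k _ _).mpr ?_
  intro x
  simp only [coe_aeval_eq_eval]
  rw [eval_homP, eval_homP]
  exact homV_ne_zero h ha (eval_ne_zero_of_isCoprime hpq x)

/-- The degree of the composed pair. -/
lemma max_natDegree_homP {F G p q : k[X]} (h : IsCoprime F G) (hpq : IsCoprime p q)
    {a b : ℕ} (ha : max F.natDegree G.natDegree = a) (hb : max p.natDegree q.natDegree = b) :
    max (homP F a p q).natDegree (homP G a p q).natDegree = a * b := by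
  have hp : p.natDegree ≤ b := hb ▸ le_max_left _ _
  have hq : q.natDegree ≤ b := hb ▸ le_max_right _ _
  have hle1 : (homP F a p q).natDegree ≤ a * b := natDegree_homP_le F hp hq
  have hle2 : (homP G a p q).natDegree ≤ a * b := natDegree_homP_le G hp hq
  refine le_antisymm (max_le hle1 hle2) ?_
  rcases homV_ne_zero h ha (coeff_max_ne_zero hpq hb) with h1 | h1
  · rw [← coeff_homP F hp hq] at h1
    exact (le_natDegree_of_ne_zero h1).trans (le_max_left _ _)
  · rw [← coeff_homP G hp hq] at h1
    exact (le_natDegree_of_ne_zero h1).trans (le_max_right _ _)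

/-- A coprime pair of positive height: the denominator is nonzero. -/
lemma right_ne_zero_of_pos {p q : k[X]} (hpq : IsCoprime p q) {b : ℕ}
    (hb : max p.natDegree q.natDegree = b) (hpos : 0 < b) : q ≠ 0 := by
  rintro rfl
  have hu : IsUnit p := isCoprime_zero_right.mp hpq
  have : p.natDegree = 0 := natDegree_eq_zero_of_isUnit hu
  simp [this] at hb
  omega

/-- A coprime pair of positive height is not proportional to `(s, 1)`. -/
lemma sub_C_mul_ne_zero_of_pos {p q : k[X]} (hpq : IsCoprime p q) {b : ℕ}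
    (hb : max p.natDegree q.natDegree = b) (hpos : 0 < b) (s : k) : p - C s * q ≠ 0 := by
  intro h0
  have hp : p = C s * q := sub_eq_zero.mp h0
  rw [hp] at hpq
  have hu : IsUnit q := by
    have : IsCoprime q (C s * q) := hpq.symm
    have h2 : IsCoprime q q := by
      obtain ⟨A, B, hAB⟩ := this
      exact ⟨A + B * C s, 0, by rw [← hAB]; ring⟩
    exact isCoprime_self.mp h2
  have hq0 : q.natDegree = 0 := natDegree_eq_zero_of_isUnit hu
  have hp0 : p.natDegree = 0 := by
    have : p.natDegree ≤ q.natDegree := by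
      rw [hp]; exact natDegree_C_mul_le s q
    omega
  rw [hp0, hq0] at hb
  simp at hb
  omega

end Comp

open Fermat.Agent.S52.M2.Comp in
/-- **[M2-COMP]** multiplicativity of the `x`-degree under composition. -/
theorem hasXDeg_comp : CompStmt.{u} := by
  intro k _ _ _ W _hW _hΔ α β a b hα hβ hb
  obtain ⟨Nα, Dα, ⟨hcα, Sα, hα⟩, hda⟩ := hα
  obtain ⟨Nβ, Dβ, ⟨hcβ, Sβ, hβ⟩, hdb⟩ := hβ
  have hDβ : Dβ ≠ 0 := right_ne_zero_of_pos hcβ hdb hb
  have hNα : Nα.natDegree ≤ a := hda ▸ le_max_left _ _
  have hDα : Dα.natDegree ≤ a := hda ▸ le_max_right _ _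
  refine ⟨homP Nα a Nβ Dβ, homP Dα a Nβ Dβ, ⟨isCoprime_homP hcα hcβ hda, ?_⟩,
    max_natDegree_homP hcα hcβ hda hdb⟩
  classical
  refine ⟨Sβ ∪ Dβ.roots.toFinset ∪ Sα.biUnion (fun s => (Nβ - C s * Dβ).roots.toFinset), ?_⟩
  intro x y h hx
  simp only [Finset.mem_union, Finset.mem_biUnion, Multiset.mem_toFinset, not_or, not_exists,
    not_and] at hx
  obtain ⟨⟨hxβ, hxD⟩, hxα⟩ := hx
  have hDx : Dβ.eval x ≠ 0 := by
    intro h0
    exact hxD ((mem_roots hDβ).mpr h0)
  obtain ⟨c, hc, hN, hD⟩ := hβ x y h hxβ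
  rw [AddMonoidHom.comp_apply]
  rcases hβP : β (Point.some x y h) with _ | ⟨x', y', h'⟩
  · exfalso
    rw [hβP] at hD
    apply hDx
    rw [hD]
    show c * (0 : W.Point).xRep 1 = 0
    simp
  · rw [hβP] at hN hD
    simp only [Point.xRep_some, Matrix.cons_val_zero, Matrix.cons_val_one, mul_one] at hN hD
    have hx' : x' ∉ Sα := by
      intro hmem
      apply hxα x' hmem
      rw [mem_roots (sub_C_mul_ne_zero_of_pos hcβ hdb hb x')]
      simp [hN, hD]
      ring
    obtain ⟨c', hc', hN', hD'⟩ := hα x' y' h' hx'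
    have hquot : Nβ.eval x / Dβ.eval x = x' := by
      rw [hN, hD]
      field_simp
    refine ⟨c ^ a * c', mul_ne_zero (pow_ne_zero _ hc) hc', ?_, ?_⟩
    · rw [eval_homP, homV_of_ne Nα hNα _ hDx, hquot, hN', hD]
      ring
    · rw [eval_homP, homV_of_ne Dα hDα _ hDx, hquot, hD', hD]
      ring

end Fermat.Agent.S52.M2
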