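/-
S52 / [M2] — leaf `FrobStmt`: the base endomorphisms `1`, `φ`, `φ²` are `xy`-rational with
`x`-degrees `1`, `ℓ`, `ℓ²`.  Owner: helper60.
-/
import Mathlib
import Fermat.Agent.S52.M2.Defs
import Fermat.Agent.S52.M2.Plan

set_option autoImplicit false

namespace Fermat.Agent.S52.M2

open Polynomial WeierstrassCurve WeierstrassCurve.Affine

universe u

namespace FrobBase

section General

variable {k : Type u} [Field k]

/-- transport of an affine point along equalities of coordinates. -/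
lemma some_congr (W : Affine k) {x y x' y' : k} (h : W.Nonsingular x y) (hx : x = x')
    (hy : y = y') : ∃ h' : W.Nonsingular x' y', Point.some x y h = Point.some x' y' h' := by
  subst hx; subst hy; exact ⟨h, rfl⟩

/-- the short Weierstrass equation. -/
lemma short_eq (W : Affine k) (hW : IsShort W) {x y : k} (h : W.Nonsingular x y) :
    y ^ 2 = x ^ 3 + W.a₄ * x + W.a₆ := by
  obtain ⟨h1, h2, h3⟩ := hW
  have := (W.equation_iff x y).mp h.1
  rw [h1, h2, h3] at this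
  linear_combination this

variable [DecidableEq k]

/-- An endomorphism acting as `(x, y) ↦ (x ^ (2m+1), y ^ (2m+1))` on affine points of a short
Weierstrass curve is `xy`-rational of `x`-degree `2m+1`. -/
theorem xyRat_hasXDeg_of_pow (W : Affine k) (hW : IsShort W) (α : W.Point →+ W.Point) (m : ℕ)
    (hα : ∀ (x y : k) (h : W.Nonsingular x y), ∃ h' : W.Nonsingular (x ^ (2 * m + 1))
      (y ^ (2 * m + 1)), α (Point.some x y h) = Point.some _ _ h') :
    XYRat W α ∧ HasXDeg W α (2 * m + 1) := by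
  refine ⟨Or.inr ⟨X ^ (2 * m + 1), (X ^ 3 + C W.a₄ * X + C W.a₆) ^ m, 1, ∅, ?_⟩,
    X ^ (2 * m + 1), 1, ⟨isCoprime_one_right, ∅, ?_⟩, ?_⟩
  · intro x y h _
    refine ⟨by simp, ?_⟩
    obtain ⟨h', e⟩ := hα x y h
    have hy : y ^ (2 * m + 1) = y * eval x ((X ^ 3 + C W.a₄ * X + C W.a₆) ^ m) / eval x 1 := by
      have := short_eq W hW h
      simp only [eval_pow, eval_add, eval_mul, eval_C, eval_X, eval_one, div_one]
      rw [← this, ← pow_mul, pow_succ, mul_comm]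
    have hx : x ^ (2 * m + 1) = eval x (X ^ (2 * m + 1)) / eval x 1 := by simp
    obtain ⟨h'', e'⟩ := some_congr W h' hx hy
    exact ⟨h'', e.trans e'⟩
  · intro x y h _
    obtain ⟨h', e⟩ := hα x y h
    refine ⟨1, one_ne_zero, ?_, ?_⟩
    · rw [e]; simp
    · rw [e]; simp
  · simp

end General

section Concrete

variable (ℓ : ℕ) [Fact ℓ.Prime] (E0 : WeierstrassCurve (ZMod ℓ))
variable (k : Type u) [Field k] [Algebra (ZMod ℓ) k]

lemma isShort_baseChange (h1 : E0.a₁ = 0) (h2 : E0.a₂ = 0) (h3 : E0.a₃ = 0) :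
    IsShort (E0.toAffine⁄k) := by
  refine ⟨?_, ?_, ?_⟩ <;> simp [WeierstrassCurve.baseChange, h1, h2, h3]

lemma exists_odd (h1 : E0.a₁ = 0) (h2 : E0.a₂ = 0) (h3 : E0.a₃ = 0) (hΔ : E0.Δ ≠ 0) :
    ∃ m : ℕ, ℓ = 2 * m + 1 := by
  have hΔ' : E0.Δ = -16 * (4 * E0.a₄ ^ 3 + 27 * E0.a₆ ^ 2) := by
    simp only [WeierstrassCurve.Δ, WeierstrassCurve.b₂, WeierstrassCurve.b₄, WeierstrassCurve.b₆,
      WeierstrassCurve.b₈, h1, h2, h3]
    ring
  rcases Nat.Prime.eq_two_or_odd' (Fact.out : ℓ.Prime) with h | h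
  · exfalso
    apply hΔ
    rw [hΔ']
    have h2' : (2 : ZMod ℓ) = 0 := by
      have h4 := congrArg (fun n : ℕ => (n : ZMod ℓ)) h
      simp only [ZMod.natCast_self, Nat.cast_ofNat] at h4
      exact h4.symm
    linear_combination (-8 * (4 * E0.a₄ ^ 3 + 27 * E0.a₆ ^ 2)) * h2'
  · obtain ⟨m, hm⟩ := h
    exact ⟨m, hm⟩

variable [DecidableEq k]

lemma frobPt_some {x y : k} (h : (E0.toAffine⁄k).Nonsingular x y) :
    ∃ h' : (E0.toAffine⁄k).Nonsingular (x ^ ℓ) (y ^ ℓ),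
      frobPt ℓ E0 k (Point.some x y h) = Point.some _ _ h' := by
  have e := Point.map_some (W' := E0.toAffine) (FiniteField.frobeniusAlgHom (ZMod ℓ) k) h
  have hx : (FiniteField.frobeniusAlgHom (ZMod ℓ) k) x = x ^ ℓ := by
    rw [FiniteField.coe_frobeniusAlgHom, ZMod.card]
  have hy : (FiniteField.frobeniusAlgHom (ZMod ℓ) k) y = y ^ ℓ := by
    rw [FiniteField.coe_frobeniusAlgHom, ZMod.card]
  obtain ⟨h'', e'⟩ := some_congr (E0.toAffine⁄k)
    ((E0.toAffine.baseChange_nonsingular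
      (FiniteField.frobeniusAlgHom (ZMod ℓ) k).injective ..).mpr h) hx hy
  exact ⟨h'', e.trans e'⟩

end Concrete

end FrobBase

/-- [M2-CORE] leaf `FrobStmt`: `1`, `φ`, `φ²` are `xy`-rational of `x`-degrees `1`, `ℓ`, `ℓ²`. -/
theorem frobStmt : FrobStmt.{u} := by
  intro ℓ _ E0 k _ _ _ _ h1 h2 h3 hΔ
  have hW := FrobBase.isShort_baseChange ℓ E0 k h1 h2 h3
  obtain ⟨m, hm⟩ := FrobBase.exists_odd ℓ E0 h1 h2 h3 hΔ
  -- identity
  have hid := FrobBase.xyRat_hasXDeg_of_pow (E0.toAffine⁄k) hW (AddMonoidHom.id _) 0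
    (fun x y h => by
      obtain ⟨h', e⟩ := FrobBase.some_congr (E0.toAffine⁄k) h
        (show x = x ^ (2 * 0 + 1) by simp) (show y = y ^ (2 * 0 + 1) by simp)
      exact ⟨h', by simp [e]⟩)
  -- Frobenius
  have hφ := FrobBase.xyRat_hasXDeg_of_pow (E0.toAffine⁄k) hW (frobPt ℓ E0 k) m
    (fun x y h => by
      obtain ⟨h', e⟩ := FrobBase.frobPt_some ℓ E0 k h
      obtain ⟨h'', e'⟩ := FrobBase.some_congr (E0.toAffine⁄k) h'
        (show x ^ ℓ = x ^ (2 * m + 1) by rw [hm]) (show y ^ ℓ = y ^ (2 * m + 1) by rw [hm])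
      exact ⟨h'', e.trans e'⟩)
  -- Frobenius squared
  have hsq : ℓ ^ 2 = 2 * (2 * m ^ 2 + 2 * m) + 1 := by rw [hm]; ring
  have hφ2 := FrobBase.xyRat_hasXDeg_of_pow (E0.toAffine⁄k) hW
    ((frobPt ℓ E0 k).comp (frobPt ℓ E0 k)) (2 * m ^ 2 + 2 * m)
    (fun x y h => by
      obtain ⟨h', e⟩ := FrobBase.frobPt_some ℓ E0 k h
      obtain ⟨h'', e'⟩ := FrobBase.frobPt_some ℓ E0 k h'
      obtain ⟨h3, e3⟩ := FrobBase.some_congr (E0.toAffine⁄k) h''
        (show (x ^ ℓ) ^ ℓ = x ^ (2 * (2 * m ^ 2 + 2 * m) + 1) by rw [← pow_mul, ← hsq, sq])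
        (show (y ^ ℓ) ^ ℓ = y ^ (2 * (2 * m ^ 2 + 2 * m) + 1) by rw [← pow_mul, ← hsq, sq])
      refine ⟨h3, ?_⟩
      rw [AddMonoidHom.comp_apply, e, e', e3])
  refine ⟨hid.1, by simpa using hid.2, hφ.1, ?_, hφ2.1, ?_⟩
  · have := hφ.2
    rwa [← hm] at this
  · have := hφ2.2
    rwa [← hsq] at this

end Fermat.Agent.S52.M2
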