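import Mathlib
import Fermat.Agent.S52.M2.Defs
import Fermat.Agent.S52.M2.Plan
import Fermat.Agent.Lib.ManinCount

/-!
# S52 / [M2-HASSE] — the `x`-degree of `φ - 1` is `#E0(𝔽_ℓ)` (second implementation)

Bridge from the polynomial core `Fermat.Agent.Lib.ManinCount.manin_count_of_short` to the contract
`HasseStmt` of `S52/M2/Plan.lean`.
-/

set_option autoImplicit false

namespace Fermat.Agent.S52.M2.HasseAlt

open Polynomial WeierstrassCurve WeierstrassCurve.Affine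
open Fermat.Agent.S52.M2

universe u

section Bridge

variable (ℓ : ℕ) [Fact ℓ.Prime] (E0 : WeierstrassCurve (ZMod ℓ))
variable (k : Type u) [Field k] [Algebra (ZMod ℓ) k] [DecidableEq k]

lemma frob_apply (x : k) : FiniteField.frobeniusAlgHom (ZMod ℓ) k x = x ^ ℓ := by
  rw [FiniteField.coe_frobeniusAlgHom, ZMod.card]

/-- The abscissa of `φ P - P` for `P = (x, y)` with `x ^ ℓ ≠ x`. -/
theorem frob_sub_id_some (h1 : E0.a₁ = 0) (h2 : E0.a₂ = 0) (h3 : E0.a₃ = 0) (hℓ2 : ℓ ≠ 2)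
    {x y : k} (h : (E0.toAffine⁄k).Nonsingular x y) (hx : x ^ ℓ ≠ x) :
    ∃ (x' y' : k) (h' : (E0.toAffine⁄k).Nonsingular x' y'),
      (frobPt ℓ E0 k - AddMonoidHom.id _ : (E0.toAffine⁄k).Point →+ (E0.toAffine⁄k).Point)
        (Point.some x y h) = Point.some x' y' h' ∧
      x' * (x ^ ℓ - x) ^ 2
        = (x ^ 3 + algebraMap (ZMod ℓ) k E0.a₄ * x + algebraMap (ZMod ℓ) k E0.a₆)
            * ((x ^ 3 + algebraMap (ZMod ℓ) k E0.a₄ * x + algebraMap (ZMod ℓ) k E0.a₆) ^ (ℓ / 2)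
              + 1) ^ 2 - (x ^ ℓ + x) * (x ^ ℓ - x) ^ 2 := by
  have ha1 : (E0.toAffine⁄k).a₁ = 0 := by
    change (E0.map (algebraMap (ZMod ℓ) k)).a₁ = 0
    rw [WeierstrassCurve.map_a₁, h1, map_zero]
  have ha2 : (E0.toAffine⁄k).a₂ = 0 := by
    change (E0.map (algebraMap (ZMod ℓ) k)).a₂ = 0
    rw [WeierstrassCurve.map_a₂, h2, map_zero]
  have ha3 : (E0.toAffine⁄k).a₃ = 0 := by
    change (E0.map (algebraMap (ZMod ℓ) k)).a₃ = 0
    rw [WeierstrassCurve.map_a₃, h3, map_zero]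
  have ha4 : (E0.toAffine⁄k).a₄ = algebraMap (ZMod ℓ) k E0.a₄ := by
    change (E0.map (algebraMap (ZMod ℓ) k)).a₄ = _
    rw [WeierstrassCurve.map_a₄]
  have ha6 : (E0.toAffine⁄k).a₆ = algebraMap (ZMod ℓ) k E0.a₆ := by
    change (E0.map (algebraMap (ZMod ℓ) k)).a₆ = _
    rw [WeierstrassCurve.map_a₆]
  -- the equation
  have heq : y ^ 2 = x ^ 3 + algebraMap (ZMod ℓ) k E0.a₄ * x + algebraMap (ZMod ℓ) k E0.a₆ := by
    have := h.1
    rw [Affine.equation_iff, ha1, ha2, ha3, ha4, ha6] at this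
    linear_combination this
  have hfrob : frobPt ℓ E0 k (Point.some x y h)
      = Point.some (x ^ ℓ) (y ^ ℓ) (by
          have := (E0.toAffine.baseChange_nonsingular
            (FiniteField.frobeniusAlgHom (ZMod ℓ) k).injective x y).mpr h
          rwa [frob_apply, frob_apply] at this) := by
    unfold frobPt
    rw [Point.map_some]
    simp only [frob_apply]
  have hneg : -(Point.some x y h : (E0.toAffine⁄k).Point)
      = Point.some x (-y) (by
          have := (Affine.nonsingular_neg (W' := E0.toAffine⁄k) x y).mpr h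
          rwa [Affine.negY, ha1, ha3, zero_mul, sub_zero, sub_zero] at this) := by
    rw [Point.neg_some]
    congr 1
    rw [Affine.negY, ha1, ha3, zero_mul, sub_zero, sub_zero]
  have hsub : (frobPt ℓ E0 k - AddMonoidHom.id _ : (E0.toAffine⁄k).Point →+ (E0.toAffine⁄k).Point)
      (Point.some x y h) = frobPt ℓ E0 k (Point.some x y h) + -(Point.some x y h) := by
    rw [AddMonoidHom.sub_apply, AddMonoidHom.id_apply, sub_eq_add_neg]
  rw [hsub, hfrob, hneg, Point.add_of_X_ne hx]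
  refine ⟨_, _, _, rfl, ?_⟩
  rw [Affine.addX, Affine.slope_of_X_ne hx, ha1, ha2]
  have hd : x ^ ℓ - x ≠ 0 := sub_ne_zero.mpr hx
  have hodd : 2 * (ℓ / 2) + 1 = ℓ := Fermat.Agent.Lib.ManinCount.two_mul_div_two_add_one ℓ hℓ2
  have hy : y ^ ℓ = y * (y ^ 2) ^ (ℓ / 2) := by
    rw [← pow_mul]
    conv_lhs => rw [← hodd]
    rw [pow_succ, mul_comm]
  rw [← heq, hy]
  field_simp
  ring

end Bridge

/-- [M2-HASSE] the `x`-degree of `φ - 1` is `#E0(𝔽_ℓ)`. -/
theorem hasXDeg_frob_sub_one : HasseStmt.{u} := by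
  intro ℓ _ E0 k _ _ _ _ h1 h2 h3 hΔ
  have hℓ2 : ℓ ≠ 2 := by
    intro hℓ
    apply hΔ
    have hE : E0.Δ = -16 * (4 * E0.a₄ ^ 3 + 27 * E0.a₆ ^ 2) := by
      simp only [WeierstrassCurve.Δ, WeierstrassCurve.b₂, WeierstrassCurve.b₄,
        WeierstrassCurve.b₆, WeierstrassCurve.b₈, h1, h2, h3]
      ring
    have h2' : ((2 : ℕ) : ZMod ℓ) = 0 := (ZMod.natCast_eq_zero_iff 2 ℓ).mpr (by rw [hℓ])
    have h2'' : (2 : ZMod ℓ) = 0 := by exact_mod_cast h2'
    have h16 : (-16 : ZMod ℓ) = -(2 ^ 4) := by norm_num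
    rw [hE, h16, h2'']
    simp
  obtain ⟨g, N, D, hN, hD, hcop, hdN, -, hdD⟩ :=
    Fermat.Agent.Lib.ManinCount.manin_count_of_short ℓ k E0 h1 h2 h3 hΔ
  have hℓ1 : 1 < ℓ := (Fact.out : ℓ.Prime).one_lt
  have hne : (X ^ ℓ - X : k[X]) ≠ 0 := FiniteField.X_pow_card_sub_X_ne_zero k hℓ1
  refine ⟨N, D, ⟨hcop, (X ^ ℓ - X : k[X]).roots.toFinset, ?_⟩, ?_⟩
  · intro x y h hxS
    have hx : x ^ ℓ ≠ x := by
      intro hx
      apply hxS
      rw [Multiset.mem_toFinset, mem_roots hne, IsRoot.def]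
      simp [hx]
    obtain ⟨x', y', h', he, hx'⟩ := HasseAlt.frob_sub_id_some ℓ E0 k h1 h2 h3 hℓ2 h hx
    have hd : (x ^ ℓ - x) ^ 2 ≠ 0 := pow_ne_zero _ (sub_ne_zero.mpr hx)
    have hDx := congrArg (eval x) hD
    have hNx := congrArg (eval x) hN
    simp only [eval_mul, eval_sub, eval_add, eval_pow, eval_X, eval_C, eval_one] at hDx hNx
    have hg : g.eval x ≠ 0 := by
      intro h0
      rw [h0, zero_mul] at hDx
      exact hd hDx
    have hDne : D.eval x ≠ 0 := by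
      intro h0
      rw [h0, mul_zero] at hDx
      exact hd hDx
    refine ⟨D.eval x, hDne, ?_, ?_⟩
    · rw [he]
      change N.eval x = D.eval x * x'
      apply mul_left_cancel₀ hg
      rw [← hNx, ← hx', hDx]
      ring
    · rw [he]
      change D.eval x = D.eval x * 1
      rw [mul_one]
  · rw [hdN, hdD]
    exact max_eq_left (Nat.sub_le _ _)

end Fermat.Agent.S52.M2.HasseAlt
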