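import Mathlib
import Fermat.Agent.S52.M2.Plan

/-!
# S52 / [M2-XY]: `xy`-rational endomorphisms are closed under addition and negation

`xyRat_add : XYAddStmt` and `xyRat_neg : XYNegStmt` (contracts of `S52/M2/Plan.lean`).

For generic representations `(a₁, b₁, e₁)` of `α` and `(a₂, b₂, e₂)` of `β` put
`q = a₂ e₁ - a₁ e₂`.  If `q ≠ 0` the chord formula gives a representation of `α + β`.  If `q = 0`
then `β = α` or `β = -α` generically, hence everywhere, and `α + β` is `0` or the double of `α`,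
which is handled by the tangent formula (or is `0` when `b₁ = 0`).
-/

set_option autoImplicit false

namespace Fermat.Agent.S52.M2.XYSum

open Polynomial WeierstrassCurve WeierstrassCurve.Affine

universe u

variable {k : Type u} [Field k] [DecidableEq k] {W : Affine k}

/-- transport of a point along equalities of coordinates -/
theorem exists_some_eq {x y x' y' : k} (h : W.Nonsingular x y) (hx : x = x') (hy : y = y') :
    ∃ h' : W.Nonsingular x' y', Point.some x y h = Point.some x' y' h' := by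
  subst hx hy
  exact ⟨h, rfl⟩

theorem short_equation (hW : IsShort W) (x y : k) :
    W.Equation x y ↔ y ^ 2 = x ^ 3 + W.a₄ * x + W.a₆ := by
  obtain ⟨h1, h2, h3⟩ := hW
  rw [equation_iff, h1, h2, h3]
  constructor <;> intro h <;> linear_combination h

theorem short_negY (hW : IsShort W) (x y : k) : W.negY x y = -y := by
  obtain ⟨h1, -, h3⟩ := hW
  simp [negY, h1, h3]

theorem two_ne_zero_of_short (hW : IsShort W) (hΔ : W.Δ ≠ 0) : (2 : k) ≠ 0 := by
  intro h2
  apply hΔ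
  obtain ⟨h1, h2', h3⟩ := hW
  simp only [WeierstrassCurve.Δ, WeierstrassCurve.b₂, WeierstrassCurve.b₄, WeierstrassCurve.b₆,
    WeierstrassCurve.b₈, h1, h2', h3]
  linear_combination (-32 * W.a₄ ^ 3 - 216 * W.a₆ ^ 2) * h2

/-- the chord formula in `xy`-form -/
theorem chord (hW : IsShort W) {y a1 b1 e1 a2 b2 e2 q p : k} (he1 : e1 ≠ 0) (he2 : e2 ≠ 0)
    (hqd : q = a2 * e1 - a1 * e2) (hpd : p = b2 * e1 - b1 * e2) (hq : q ≠ 0)
    (h1 : W.Nonsingular (a1 / e1) (y * b1 / e1)) (h2 : W.Nonsingular (a2 / e2) (y * b2 / e2)) :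
    ∃ h' : W.Nonsingular
        (q * (y ^ 2 * p ^ 2 * e1 * e2 - a1 * q ^ 2 * e2 - a2 * q ^ 2 * e1) / (q ^ 3 * e1 * e2))
        (y * (-(p * ((y ^ 2 * p ^ 2 * e1 * e2 - a1 * q ^ 2 * e2 - a2 * q ^ 2 * e1)
              - a1 * q ^ 2 * e2) + b1 * q ^ 3 * e2)) / (q ^ 3 * e1 * e2)),
      Point.some _ _ h1 + Point.some _ _ h2 = Point.some _ _ h' := by
  have hxd : a1 / e1 - a2 / e2 = -q / (e1 * e2) := by
    rw [hqd]
    field_simp
    ring
  have hx : a1 / e1 ≠ a2 / e2 := by
    intro h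
    rw [h, sub_self] at hxd
    have h0 : -q / (e1 * e2) ≠ 0 := div_ne_zero (neg_ne_zero.mpr hq) (mul_ne_zero he1 he2)
    exact h0 hxd.symm
  rw [Point.add_of_X_ne hx]
  have hL : W.slope (a1 / e1) (a2 / e2) (y * b1 / e1) (y * b2 / e2) = y * (p / q) := by
    rw [slope_of_X_ne hx, hxd]
    have hyd : y * b1 / e1 - y * b2 / e2 = -(y * p) / (e1 * e2) := by
      rw [hpd]
      field_simp
      ring
    rw [hyd]
    field_simp
  have hX : W.addX (a1 / e1) (a2 / e2) (W.slope (a1 / e1) (a2 / e2) (y * b1 / e1) (y * b2 / e2))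
      = q * (y ^ 2 * p ^ 2 * e1 * e2 - a1 * q ^ 2 * e2 - a2 * q ^ 2 * e1) / (q ^ 3 * e1 * e2) := by
    rw [hL]
    simp only [addX, hW.1, hW.2.1]
    field_simp
    ring
  refine exists_some_eq _ hX ?_
  simp only [addY, negAddY, short_negY hW]
  rw [hX, hL]
  field_simp

/-- the tangent formula in `xy`-form -/
theorem tangent (hW : IsShort W) (h2 : (2 : k) ≠ 0) {y a1 b1 e1 P Q : k} (he1 : e1 ≠ 0)
    (hy : y ≠ 0) (hb1 : b1 ≠ 0)
    (hPd : P = 3 * a1 ^ 2 + W.a₄ * e1 ^ 2) (hQd : Q = 2 * y ^ 2 * b1 * e1)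
    (h1 : W.Nonsingular (a1 / e1) (y * b1 / e1)) :
    ∃ h' : W.Nonsingular
        (Q * (y ^ 2 * P ^ 2 * e1 - 2 * a1 * Q ^ 2) / (Q ^ 3 * e1))
        (y * (-(P * ((y ^ 2 * P ^ 2 * e1 - 2 * a1 * Q ^ 2) - a1 * Q ^ 2) + b1 * Q ^ 3))
          / (Q ^ 3 * e1)),
      Point.some _ _ h1 + Point.some _ _ h1 = Point.some _ _ h' := by
  have hQ : Q ≠ 0 := by
    rw [hQd]
    exact mul_ne_zero (mul_ne_zero (mul_ne_zero h2 (pow_ne_zero 2 hy)) hb1) he1
  have hy1 : y * b1 / e1 ≠ 0 := div_ne_zero (mul_ne_zero hy hb1) he1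
  have hyne : y * b1 / e1 ≠ W.negY (a1 / e1) (y * b1 / e1) := by
    rw [short_negY hW]
    intro h
    have h3 : 2 * (y * b1 / e1) = 0 := by linear_combination h
    rcases mul_eq_zero.mp h3 with h4 | h4
    · exact h2 h4
    · exact hy1 h4
  rw [Point.add_self_of_Y_ne hyne]
  have hL : W.slope (a1 / e1) (a1 / e1) (y * b1 / e1) (y * b1 / e1) = y * (P / Q) := by
    rw [slope_of_Y_ne rfl hyne, short_negY hW, hW.1, hW.2.1, hPd, hQd]
    have hden : y * b1 / e1 - -(y * b1 / e1) = 2 * (y * b1 / e1) := by ring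
    rw [hden, div_eq_iff (mul_ne_zero h2 hy1)]
    field_simp
    ring
  have hX : W.addX (a1 / e1) (a1 / e1) (W.slope (a1 / e1) (a1 / e1) (y * b1 / e1) (y * b1 / e1))
      = Q * (y ^ 2 * P ^ 2 * e1 - 2 * a1 * Q ^ 2) / (Q ^ 3 * e1) := by
    rw [hL]
    simp only [addX, hW.1, hW.2.1]
    field_simp
    ring
  refine exists_some_eq _ hX ?_
  simp only [addY, negAddY, short_negY hW]
  rw [hX, hL]
  field_simp


section Generic

variable [IsAlgClosed k]

theorem exists_y (hW : IsShort W) (hΔ : W.Δ ≠ 0) (x : k) : ∃ y, W.Nonsingular x y := by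
  obtain ⟨y, hy⟩ := IsAlgClosed.exists_pow_nat_eq (x ^ 3 + W.a₄ * x + W.a₆) (n := 2) (by norm_num)
  exact ⟨y, (equation_iff_nonsingular_of_Δ_ne_zero hΔ).mp ((short_equation hW x y).mpr hy)⟩

/-- the points whose `x`-coordinate lies in a finite set (and the origin) form a finite set -/
theorem finite_bad (hW : IsShort W) (S : Finset k) :
    {P : W.Point | ∀ (x y : k) (h : W.Nonsingular x y), P = Point.some x y h → x ∈ S}.Finite := by
  classical
  let F : W.Point → Option (k × k) := fun P =>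
    match P with
    | .zero => none
    | .some x y _ => some (x, y)
  have hF : Function.Injective F := by
    intro P Q hPQ
    cases P with
    | zero =>
      cases Q with
      | zero => rfl
      | some x y h => simp [F] at hPQ
    | some x y h =>
      cases Q with
      | zero => simp [F] at hPQ
      | some x' y' h' =>
        simp only [F, Option.some.injEq, Prod.mk.injEq] at hPQ
        obtain ⟨rfl, rfl⟩ := hPQ
        rfl
  have hY : {y : k | ∃ x ∈ S, y ^ 2 = x ^ 3 + W.a₄ * x + W.a₆}.Finite := by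
    have : {y : k | ∃ x ∈ S, y ^ 2 = x ^ 3 + W.a₄ * x + W.a₆}
        = ⋃ x ∈ (S : Set k), {y : k | y ^ 2 = x ^ 3 + W.a₄ * x + W.a₆} := by
      ext y
      simp
    rw [this]
    refine Set.Finite.biUnion S.finite_toSet fun x _ => ?_
    refine ((Polynomial.nthRoots 2 (x ^ 3 + W.a₄ * x + W.a₆)).toFinset.finite_toSet).subset ?_
    intro y hy
    simp only [Finset.mem_coe, Multiset.mem_toFinset]
    rw [Polynomial.mem_nthRoots (by norm_num)]
    exact hy
  have hT : (insert none (some '' ((S : Set k) ×ˢ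
      {y : k | ∃ x ∈ S, y ^ 2 = x ^ 3 + W.a₄ * x + W.a₆})) : Set (Option (k × k))).Finite :=
    Set.Finite.insert _ ((S.finite_toSet.prod hY).image _)
  refine (hT.preimage hF.injOn).subset ?_
  intro P hP
  cases P with
  | zero => simp [F]
  | some x y h =>
    have hx := hP x y h rfl
    simp only [Set.mem_preimage, F, Set.mem_insert_iff, reduceCtorEq, Set.mem_image,
      Option.some.injEq, false_or]
    exact ⟨(x, y), ⟨hx, x, hx, (short_equation hW x y).mp h.1⟩, rfl⟩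

theorem infinite_point (hW : IsShort W) (hΔ : W.Δ ≠ 0) : Infinite W.Point := by
  choose y hy using exists_y hW hΔ
  refine Infinite.of_injective (fun x => Point.some x (y x) (hy x)) ?_
  intro a b hab
  simp only [Point.some.injEq] at hab
  exact hab.1

/-- two endomorphisms which agree at all affine points with `x` outside a finite set are equal -/
theorem eq_of_generic (hW : IsShort W) (hΔ : W.Δ ≠ 0) (α β : W.Point →+ W.Point) (S : Finset k)
    (h : ∀ (x y : k) (hxy : W.Nonsingular x y), x ∉ S →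
      α (Point.some x y hxy) = β (Point.some x y hxy)) : α = β := by
  have := infinite_point hW hΔ
  ext P
  set B : Set W.Point :=
    {P : W.Point | ∀ (x y : k) (h : W.Nonsingular x y), P = Point.some x y h → x ∈ S} with hBdef
  have hB : B.Finite := finite_bad hW S
  have hB' : ((fun Q => Q + P) ⁻¹' B).Finite := hB.preimage (add_left_injective P).injOn
  obtain ⟨Q, hQ⟩ := (hB.union hB').infinite_compl.nonempty
  simp only [Set.mem_compl_iff, Set.mem_union, not_or, Set.mem_preimage] at hQ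
  have key : ∀ R : W.Point, R ∉ B → α R = β R := by
    intro R hR
    simp only [hBdef, Set.mem_ofPred_eq, not_forall] at hR
    obtain ⟨x, y, hxy, rfl, hx⟩ := hR
    exact h x y hxy hx
  have h1 := key Q hQ.1
  have h2 := key (Q + P) hQ.2
  rw [map_add, map_add, h1] at h2
  exact add_left_cancel h2

theorem poly_eq_zero_of_cofinite (S : Finset k) (p : k[X]) (h : ∀ x ∉ S, p.eval x = 0) :
    p = 0 := by
  refine Polynomial.eq_zero_of_infinite_isRoot p ?_
  refine Set.Infinite.mono ?_ (S.finite_toSet.infinite_compl)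
  intro x hx
  exact h x hx

/-- the cubic `X³ + a₄ X + a₆` -/
noncomputable def cubic (W : Affine k) : k[X] := X ^ 3 + C W.a₄ * X + C W.a₆

theorem eval_cubic (x : k) : (cubic W).eval x = x ^ 3 + W.a₄ * x + W.a₆ := by
  simp [cubic]

theorem cubic_ne_zero : cubic W ≠ 0 := by
  intro h
  have h1 : (cubic W).coeff 3 = 1 := by
    simp [cubic]
  rw [h] at h1
  simp at h1

end Generic

section Main

variable [IsAlgClosed k]

theorem xyRat_neg_aux (hW : IsShort W) (α : W.Point →+ W.Point) (h : XYRat W α) :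
    XYRat W (-α) := by
  rcases h with rfl | ⟨a, b, e, S, hS⟩
  · left
    simp
  · right
    refine ⟨a, -b, e, S, fun x y hxy hx => ?_⟩
    obtain ⟨he, h', hα⟩ := hS x y hxy hx
    refine ⟨he, ?_⟩
    rw [AddMonoidHom.neg_apply, hα, Point.neg_some]
    exact exists_some_eq _ rfl (by rw [short_negY hW, eval_neg]; ring)

theorem rep_chord (hW : IsShort W) (α β : W.Point →+ W.Point) {a₁ b₁ e₁ a₂ b₂ e₂ q p : k[X]}
    (hα : XYRep W α a₁ b₁ e₁) (hβ : XYRep W β a₂ b₂ e₂) (hqd : q = a₂ * e₁ - a₁ * e₂)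
    (hpd : p = b₂ * e₁ - b₁ * e₂) (hq : q ≠ 0) :
    XYRep W (α + β) (q * (cubic W * p ^ 2 * e₁ * e₂ - a₁ * q ^ 2 * e₂ - a₂ * q ^ 2 * e₁))
      (-(p * ((cubic W * p ^ 2 * e₁ * e₂ - a₁ * q ^ 2 * e₂ - a₂ * q ^ 2 * e₁)
        - a₁ * q ^ 2 * e₂) + b₁ * q ^ 3 * e₂))
      (q ^ 3 * e₁ * e₂) := by
  classical
  obtain ⟨S₁, hS₁⟩ := hα
  obtain ⟨S₂, hS₂⟩ := hβ
  refine ⟨S₁ ∪ S₂ ∪ q.roots.toFinset, fun x y h hx => ?_⟩
  simp only [Finset.mem_union, Multiset.mem_toFinset, not_or] at hx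
  obtain ⟨⟨hx1, hx2⟩, hx3⟩ := hx
  have hqx : q.eval x ≠ 0 := fun h0 => hx3 ((Polynomial.mem_roots hq).mpr h0)
  obtain ⟨he1, h1, hα⟩ := hS₁ x y h hx1
  obtain ⟨he2, h2, hβ⟩ := hS₂ x y h hx2
  have hf : (cubic W).eval x = y ^ 2 := by rw [eval_cubic, (short_equation hW x y).mp h.1]
  obtain ⟨h', hsum⟩ := chord hW he1 he2 (q := q.eval x) (p := p.eval x)
    (by rw [hqd]; simp) (by rw [hpd]; simp) hqx h1 h2
  refine ⟨?_, ?_⟩
  · simp only [eval_mul, eval_pow]
    exact mul_ne_zero (mul_ne_zero (pow_ne_zero 3 hqx) he1) he2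
  · rw [AddMonoidHom.add_apply, hα, hβ, hsum]
    exact exists_some_eq h' (by simp only [eval_mul, eval_sub, eval_pow, hf])
      (by simp only [eval_mul, eval_sub, eval_pow, eval_neg, eval_add, hf])

theorem rep_tangent (hW : IsShort W) (hΔ : W.Δ ≠ 0) (α : W.Point →+ W.Point)
    {a₁ b₁ e₁ P Q : k[X]} (hα : XYRep W α a₁ b₁ e₁) (hb : b₁ ≠ 0)
    (hPd : P = 3 * a₁ ^ 2 + C W.a₄ * e₁ ^ 2) (hQd : Q = 2 * cubic W * b₁ * e₁) :
    XYRep W (α + α) (Q * (cubic W * P ^ 2 * e₁ - 2 * a₁ * Q ^ 2))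
      (-(P * ((cubic W * P ^ 2 * e₁ - 2 * a₁ * Q ^ 2) - a₁ * Q ^ 2) + b₁ * Q ^ 3))
      (Q ^ 3 * e₁) := by
  classical
  have h2 : (2 : k) ≠ 0 := two_ne_zero_of_short hW hΔ
  obtain ⟨S₁, hS₁⟩ := hα
  refine ⟨S₁ ∪ (cubic W).roots.toFinset ∪ b₁.roots.toFinset, fun x y h hx => ?_⟩
  simp only [Finset.mem_union, Multiset.mem_toFinset, not_or] at hx
  obtain ⟨⟨hx1, hx2⟩, hx3⟩ := hx
  have hfx : (cubic W).eval x ≠ 0 := fun h0 => hx2 ((Polynomial.mem_roots cubic_ne_zero).mpr h0)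
  have hbx : b₁.eval x ≠ 0 := fun h0 => hx3 ((Polynomial.mem_roots hb).mpr h0)
  obtain ⟨he1, h1, hα⟩ := hS₁ x y h hx1
  have hf : (cubic W).eval x = y ^ 2 := by rw [eval_cubic, (short_equation hW x y).mp h.1]
  have hy : y ≠ 0 := by
    rintro rfl
    apply hfx
    rw [hf]
    ring
  have hQx : Q.eval x = 2 * y ^ 2 * b₁.eval x * e₁.eval x := by
    rw [hQd]
    simp only [eval_mul, eval_ofNat, hf]
  obtain ⟨h', hsum⟩ := tangent hW h2 he1 hy hbx (P := P.eval x) (Q := Q.eval x)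
    (by rw [hPd]; simp) hQx h1
  refine ⟨?_, ?_⟩
  · simp only [eval_mul, eval_pow]
    refine mul_ne_zero (pow_ne_zero 3 ?_) he1
    rw [hQx]
    exact mul_ne_zero (mul_ne_zero (mul_ne_zero h2 (pow_ne_zero 2 hy)) hbx) he1
  · rw [AddMonoidHom.add_apply, hα, hsum]
    exact exists_some_eq h' (by simp only [eval_mul, eval_sub, eval_pow, eval_ofNat, hf])
      (by simp only [eval_mul, eval_sub, eval_pow, eval_neg, eval_add, eval_ofNat, hf])

theorem xyRat_add_aux (hW : IsShort W) (hΔ : W.Δ ≠ 0) (α β : W.Point →+ W.Point)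
    (hα : XYRat W α) (hβ : XYRat W β) : XYRat W (α + β) := by
  classical
  rcases hα with rfl | ⟨a₁, b₁, e₁, hα⟩
  · rw [zero_add]
    exact hβ
  rcases hβ with rfl | ⟨a₂, b₂, e₂, hβ⟩
  · rw [add_zero]
    exact Or.inr ⟨a₁, b₁, e₁, hα⟩
  by_cases hq : a₂ * e₁ - a₁ * e₂ = 0
  swap
  · exact Or.inr ⟨_, _, _, rep_chord hW α β hα hβ rfl rfl hq⟩
  obtain ⟨S₁, hS₁⟩ := id hα
  obtain ⟨S₂, hS₂⟩ := id hβ
  -- pointwise consequences of `q = 0`
  have hxx : ∀ x : k, e₁.eval x ≠ 0 → e₂.eval x ≠ 0 →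
      a₁.eval x / e₁.eval x = a₂.eval x / e₂.eval x := by
    intro x he1 he2
    have h0 := congrArg (eval x) hq
    simp only [eval_sub, eval_mul, eval_zero] at h0
    rw [div_eq_div_iff he1 he2]
    linear_combination -h0
  have hsq : cubic W * ((b₁ * e₂) ^ 2 - (b₂ * e₁) ^ 2) = 0 := by
    refine poly_eq_zero_of_cofinite (S₁ ∪ S₂) _ fun x hx => ?_
    simp only [Finset.mem_union, not_or] at hx
    obtain ⟨y, hy⟩ := exists_y hW hΔ x
    obtain ⟨he1, h1, -⟩ := hS₁ x y hy hx.1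
    obtain ⟨he2, h2, -⟩ := hS₂ x y hy hx.2
    have E1 := (short_equation hW _ _).mp h1.1
    have E2 := (short_equation hW _ _).mp h2.1
    rw [hxx x he1 he2] at E1
    have E3 : (y * b₁.eval x / e₁.eval x) ^ 2 = (y * b₂.eval x / e₂.eval x) ^ 2 := E1.trans E2.symm
    have hf : (cubic W).eval x = y ^ 2 := by rw [eval_cubic, (short_equation hW x y).mp hy.1]
    simp only [eval_mul, eval_sub, eval_pow, hf]
    field_simp at E3
    linear_combination E3
  have hsq' : (b₁ * e₂ - b₂ * e₁) * (b₁ * e₂ + b₂ * e₁) = 0 := by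
    rcases mul_eq_zero.mp hsq with h | h
    · exact absurd h cubic_ne_zero
    · rw [← h]
      ring
  rcases mul_eq_zero.mp hsq' with hp | hp
  · -- `β = α`
    have hαβ : α = β := by
      refine eq_of_generic hW hΔ α β (S₁ ∪ S₂) fun x y hxy hx => ?_
      simp only [Finset.mem_union, not_or] at hx
      obtain ⟨he1, h1, hα'⟩ := hS₁ x y hxy hx.1
      obtain ⟨he2, h2, hβ'⟩ := hS₂ x y hxy hx.2
      rw [hα', hβ']
      simp only [Point.some.injEq]
      refine ⟨hxx x he1 he2, ?_⟩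
      have h0 := congrArg (eval x) hp
      simp only [eval_sub, eval_mul, eval_zero] at h0
      rw [div_eq_div_iff he1 he2]
      linear_combination y * h0
    rw [← hαβ]
    by_cases hb : b₁ = 0
    · left
      refine eq_of_generic hW hΔ (α + α) 0 S₁ fun x y hxy hx => ?_
      obtain ⟨he1, h1, hα'⟩ := hS₁ x y hxy hx
      rw [AddMonoidHom.add_apply, hα', AddMonoidHom.zero_apply]
      refine Point.add_self_of_Y_eq ?_
      rw [short_negY hW, hb]
      simp
    · exact Or.inr ⟨_, _, _, rep_tangent hW hΔ α hα hb rfl rfl⟩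
  · -- `β = -α`
    left
    refine eq_of_generic hW hΔ (α + β) 0 (S₁ ∪ S₂) fun x y hxy hx => ?_
    simp only [Finset.mem_union, not_or] at hx
    obtain ⟨he1, h1, hα'⟩ := hS₁ x y hxy hx.1
    obtain ⟨he2, h2, hβ'⟩ := hS₂ x y hxy hx.2
    rw [AddMonoidHom.add_apply, hα', hβ', AddMonoidHom.zero_apply]
    refine Point.add_of_Y_eq (hxx x he1 he2) ?_
    rw [short_negY hW]
    have h0 := congrArg (eval x) hp
    simp only [eval_add, eval_mul, eval_zero] at h0
    rw [eq_neg_iff_add_eq_zero]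
    field_simp
    linear_combination y * h0

end Main

/-- **[M2-XY]** `xy`-rational endomorphisms are closed under addition. -/
theorem xyRat_add : XYAddStmt.{u} :=
  fun _ _ _ _ _ hW hΔ α β hα hβ => xyRat_add_aux hW hΔ α β hα hβ

/-- **[M2-XY]** `xy`-rational endomorphisms are closed under negation. -/
theorem xyRat_neg : XYNegStmt.{u} :=
  fun _ _ _ _ _ hW _ α hα => xyRat_neg_aux hW α hα

end Fermat.Agent.S52.M2.XYSum
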