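/-
S52 / [M2] — the Frobenius quadratic equation `φ² - a φ + ℓ = 0` on `E0(k)`
(`E0` a short Weierstrass curve over `𝔽_ℓ` with `Δ ≠ 0`, `k` an algebraically closed
`𝔽_ℓ`-algebra, `a = ℓ + 1 - #E0(𝔽_ℓ)`), by Manin's elementary method.
Owner: helper29 (M2 sub-lead).  Leaves: helper66 (Lib/HeightLaw, M2/Comp), helper43 (M2/XYSum),
helper60 (M2/FrobBase), helper89 (Lib/ManinCount, M2/HasseAlt).
-/
import Mathlib
import Fermat.Agent.S52.M2.Defs
import Fermat.Agent.S52.M2.Plan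
import Fermat.Agent.S52.M2.Assembly
import Fermat.Agent.S52.M2.XYSum
import Fermat.Agent.S52.M2.Comp
import Fermat.Agent.S52.M2.FrobBase
import Fermat.Agent.S52.M2.HasseAlt

set_option autoImplicit false

namespace Fermat.Agent.S52.M2

open WeierstrassCurve WeierstrassCurve.Affine

universe u

/-- **[M2]** the Frobenius quadratic equation. -/
theorem frobQuadStmt : FrobQuadStmt.{u} :=
  frobQuad_of XYSum.xyRat_add XYSum.xyRat_neg hasXDeg_comp frobStmt HasseAlt.hasXDeg_frob_sub_one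

/-- Unfolded form of `frobQuadStmt`. -/
theorem frob_quadratic (ℓ : ℕ) [Fact ℓ.Prime] (E0 : WeierstrassCurve (ZMod ℓ)) (k : Type u)
    [Field k] [Algebra (ZMod ℓ) k] [IsAlgClosed k] [DecidableEq k]
    (h1 : E0.a₁ = 0) (h2 : E0.a₂ = 0) (h3 : E0.a₃ = 0) (hΔ : E0.Δ ≠ 0)
    (P : (E0.toAffine⁄k).Point) :
    frobPt ℓ E0 k (frobPt ℓ E0 k P)
      - ((ℓ : ℤ) + 1 - (Nat.card E0.toAffine.Point : ℤ)) • frobPt ℓ E0 k P + (ℓ : ℤ) • P = 0 :=
  frobQuadStmt ℓ E0 k h1 h2 h3 hΔ P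

end Fermat.Agent.S52.M2
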