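/-
S52 / [M2-HASSE] (helper5): the `x`-degree of `φ - 1` is `#E0(𝔽_ℓ)`.

For `E0 : y² = f(x) = x³ + a₄x + a₆` over `𝔽_ℓ` (`Δ ≠ 0`, hence `ℓ` odd), `m = (ℓ-1)/2` and a point
`P = (x, y)` over `k ⊇ 𝔽_ℓ` with `x ∉ 𝔽_ℓ`:
`x(φP - P) = Nu(x) / (x^ℓ - x)²`, `Nu = f (f^m + 1)² - (X^ℓ + X)(X^ℓ - X)²`.
With `e(c) = #{y ∈ 𝔽_ℓ : y² = f(c)}` (Euler's criterion), `Cc = ∏_c (X - c)^(2 - e(c))` divides `Nu`,
`(X^ℓ - X)² = Cc · D`, `D = ∏_c (X - c)^(e(c))`, `N = Nu / Cc` is coprime to `D`, and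
`natDegree N = 2ℓ + 1 - Σ (2 - e(c)) = 1 + Σ e(c) = #E0(𝔽_ℓ) > natDegree D`.
-/
import Mathlib
import Fermat.Agent.S52.M2.Plan

set_option autoImplicit false

namespace Fermat.Agent.S52.M2.Hasse

open Polynomial WeierstrassCurve WeierstrassCurve.Affine

universe u

section Poly

variable (ℓ : ℕ) [Fact ℓ.Prime] (k : Type u) [Field k] [Algebra (ZMod ℓ) k] (a4 a6 : ZMod ℓ)

/-- The cubic `x³ + a₄ x + a₆` over `𝔽_ℓ`. -/
def f0 (c : ZMod ℓ) : ZMod ℓ := c ^ 3 + a4 * c + a6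

/-- The cubic as a polynomial over `k`. -/
noncomputable def fk : k[X] :=
  X ^ 3 + C (algebraMap (ZMod ℓ) k a4) * X + C (algebraMap (ZMod ℓ) k a6)

/-- Numerator of `x(φP - P)` before cancellation. -/
noncomputable def Nu : k[X] :=
  fk ℓ k a4 a6 * (fk ℓ k a4 a6 ^ (ℓ / 2) + 1) ^ 2 - (X ^ ℓ + X) * (X ^ ℓ - X) ^ 2

/-- number of `y ∈ 𝔽_ℓ` with `y² = f(c)` (by Euler's criterion). -/
def ecount (c : ZMod ℓ) : ℕ :=
  if f0 ℓ a4 a6 c = 0 then 1 else if f0 ℓ a4 a6 c ^ (ℓ / 2) = 1 then 2 else 0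

theorem prod_X_sub_C_eq :
    ∏ c : ZMod ℓ, (X - C (algebraMap (ZMod ℓ) k c)) = (X ^ ℓ - X : k[X]) := by
  have hℓ : 1 < ℓ := (Fact.out : ℓ.Prime).one_lt
  have h0 : (X ^ ℓ - X : (ZMod ℓ)[X]) = ∏ c : ZMod ℓ, (X - C c) := by
    have hm : (X ^ ℓ - X : (ZMod ℓ)[X]).Monic :=
      monic_X_pow_sub (by rw [degree_X]; exact_mod_cast hℓ)
    have hr : (X ^ ℓ - X : (ZMod ℓ)[X]).roots = Finset.univ.val := by
      have := FiniteField.roots_X_pow_card_sub_X (ZMod ℓ)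
      rwa [ZMod.card] at this
    have hs : (X ^ ℓ - X : (ZMod ℓ)[X]).Splits := by
      rw [splits_iff_card_roots, hr, FiniteField.X_pow_card_sub_X_natDegree_eq _ hℓ]
      simp [ZMod.card]
    have := hs.eq_prod_roots_of_monic hm
    rw [hr] at this
    rw [this]
    rfl
  have := congrArg (Polynomial.map (algebraMap (ZMod ℓ) k)) h0
  simp only [Polynomial.map_sub, Polynomial.map_pow, Polynomial.map_X, Polynomial.map_prod,
    Polynomial.map_C] at this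
  exact this.symm


variable {ℓ k a4 a6}

theorem eval_fk (c : ZMod ℓ) :
    (fk ℓ k a4 a6).eval (algebraMap (ZMod ℓ) k c) = algebraMap (ZMod ℓ) k (f0 ℓ a4 a6 c) := by
  simp [fk, f0]

theorem alg_pow_card (c : ZMod ℓ) :
    (algebraMap (ZMod ℓ) k c) ^ ℓ = algebraMap (ZMod ℓ) k c := by
  rw [← map_pow, ZMod.pow_card]

theorem eval_Nu (c : ZMod ℓ) :
    (Nu ℓ k a4 a6).eval (algebraMap (ZMod ℓ) k c) =
      algebraMap (ZMod ℓ) k (f0 ℓ a4 a6 c * (f0 ℓ a4 a6 c ^ (ℓ / 2) + 1) ^ 2) := by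
  simp [Nu, eval_fk, alg_pow_card]

theorem ecount_le (c : ZMod ℓ) : ecount ℓ a4 a6 c ≤ 2 := by
  unfold ecount; split_ifs <;> omega

theorem half_pos (hodd : ℓ ≠ 2) : 1 ≤ ℓ / 2 ∧ ℓ = 2 * (ℓ / 2) + 1 := by
  have hp : ℓ.Prime := Fact.out
  have h2 := hp.two_le
  rcases hp.eq_two_or_odd with h | h
  · exact absurd h hodd
  · omega

theorem two_ne_zero_zmod (hodd : ℓ ≠ 2) : (2 : ZMod ℓ) ≠ 0 := by
  have hp : ℓ.Prime := Fact.out
  intro h
  have h' : ((2 : ℕ) : ZMod ℓ) = 0 := by exact_mod_cast h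
  rw [ZMod.natCast_eq_zero_iff] at h'
  have := Nat.le_of_dvd (by norm_num) h'
  have := hp.two_le
  omega

theorem X_sub_dvd_card (c : ZMod ℓ) :
    (X - C (algebraMap (ZMod ℓ) k c)) ∣ (X ^ ℓ - X : k[X]) := by
  rw [dvd_iff_isRoot]
  simp [alg_pow_card]

theorem dvd_Nu (c : ZMod ℓ) :
    (X - C (algebraMap (ZMod ℓ) k c)) ^ (2 - ecount ℓ a4 a6 c) ∣ Nu ℓ k a4 a6 := by
  unfold ecount
  split_ifs with h0 h1
  · simp only [Nat.add_one_sub_one, pow_one]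
    rw [dvd_iff_isRoot, IsRoot, eval_Nu, h0]
    simp
  · simp
  · have hm : f0 ℓ a4 a6 c ^ (ℓ / 2) = -1 :=
      (ZMod.pow_div_two_eq_neg_one_or_one ℓ h0).resolve_left h1
    have d1 : (X - C (algebraMap (ZMod ℓ) k c)) ∣ fk ℓ k a4 a6 ^ (ℓ / 2) + 1 := by
      rw [dvd_iff_isRoot]
      simp [eval_fk, ← map_pow, hm]
    have d2 := X_sub_dvd_card (k := k) c
    simp only [Nat.sub_zero]
    unfold Nu
    exact dvd_sub (Dvd.dvd.mul_left (pow_dvd_pow_of_dvd d1 2) _)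
      (Dvd.dvd.mul_left (pow_dvd_pow_of_dvd d2 2) _)

theorem fk_taylor (c : ZMod ℓ) :
    fk ℓ k a4 a6 = (X - C (algebraMap (ZMod ℓ) k c)) ^ 2 * (X + C (2 * algebraMap (ZMod ℓ) k c))
      + C (algebraMap (ZMod ℓ) k (3 * c ^ 2 + a4)) * (X - C (algebraMap (ZMod ℓ) k c))
      + C (algebraMap (ZMod ℓ) k (f0 ℓ a4 a6 c)) := by
  simp only [fk, f0, map_add, map_mul, map_pow, map_ofNat]
  ring

theorem not_dvd_Nu (hodd : ℓ ≠ 2) (hsep : ∀ c, f0 ℓ a4 a6 c = 0 → 3 * c ^ 2 + a4 ≠ 0)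
    (c : ZMod ℓ) (hc : 0 < ecount ℓ a4 a6 c) :
    ¬ (X - C (algebraMap (ZMod ℓ) k c)) ^ (3 - ecount ℓ a4 a6 c) ∣ Nu ℓ k a4 a6 := by
  have hinj : Function.Injective (algebraMap (ZMod ℓ) k) := (algebraMap (ZMod ℓ) k).injective
  obtain ⟨hm1, -⟩ := half_pos hodd
  unfold ecount at hc ⊢
  split_ifs at hc ⊢ with h0 h1
  · -- simple root
    simp only [show (3 : ℕ) - 1 = 2 from rfl]
    intro hd
    set a := algebraMap (ZMod ℓ) k c with ha
    have d2 : (X - C a) ^ 2 ∣ (X ^ ℓ + X) * (X ^ ℓ - X) ^ 2 :=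
      Dvd.dvd.mul_left (pow_dvd_pow_of_dvd (X_sub_dvd_card (k := k) c) 2) _
    have d3 : (X - C a) ^ 2 ∣ fk ℓ k a4 a6 * (fk ℓ k a4 a6 ^ (ℓ / 2) + 1) ^ 2 := by
      have := dvd_add hd d2
      unfold Nu at this
      simpa using this
    have hcop : IsCoprime ((X - C a) ^ 2) ((fk ℓ k a4 a6 ^ (ℓ / 2) + 1) ^ 2) := by
      apply IsCoprime.pow
      rw [(irreducible_X_sub_C a).coprime_iff_not_dvd, dvd_iff_isRoot]
      have : (0 : k) ^ (ℓ / 2) = 0 := zero_pow (by omega)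
      simp [IsRoot, ha, eval_fk, h0, this]
    have d4 : (X - C a) ^ 2 ∣ fk ℓ k a4 a6 := hcop.dvd_of_dvd_mul_right d3
    rw [fk_taylor (k := k) (a4 := a4) (a6 := a6) c, h0, map_zero, C_0, add_zero, ← ha] at d4
    have d5 : (X - C a) ^ 2 ∣ C (algebraMap (ZMod ℓ) k (3 * c ^ 2 + a4)) * (X - C a) :=
      (dvd_add_right (Dvd.intro _ rfl)).mp d4
    have d6 : (X - C a) ∣ C (algebraMap (ZMod ℓ) k (3 * c ^ 2 + a4)) := by
      rw [pow_two, mul_comm (C _)] at d5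
      exact (mul_dvd_mul_iff_left (X_sub_C_ne_zero a)).mp d5
    rw [dvd_iff_isRoot, IsRoot, eval_C] at d6
    exact hsep c h0 (hinj (by rw [d6, map_zero]))
  · -- no root
    simp only [show (3 : ℕ) - 2 = 1 from rfl, pow_one]
    rw [dvd_iff_isRoot, IsRoot, eval_Nu, h1]
    intro h
    have h' := hinj (h.trans (map_zero _).symm)
    have h2 := two_ne_zero_zmod hodd
    rcases mul_eq_zero.mp h' with h | h
    · exact h0 h
    · have : (1 + 1 : ZMod ℓ) = 2 := by norm_num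
      rw [this] at h
      exact h2 (pow_eq_zero_iff (by norm_num) |>.mp h)
  · exact absurd hc (lt_irrefl 0)


theorem fk_pow_card :
    fk ℓ k a4 a6 ^ ℓ = X ^ (3 * ℓ) + C (algebraMap (ZMod ℓ) k a4) * X ^ ℓ
      + C (algebraMap (ZMod ℓ) k a6) := by
  have : CharP k ℓ := charP_of_injective_algebraMap (algebraMap (ZMod ℓ) k).injective ℓ
  unfold fk
  rw [add_pow_char, add_pow_char, mul_pow, ← C_pow, ← C_pow, alg_pow_card, alg_pow_card,
    ← pow_mul]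

theorem natDegree_fk_le : (fk ℓ k a4 a6).natDegree ≤ 3 := by
  unfold fk; compute_degree

theorem Nu_eq (hodd : ℓ ≠ 2) :
    Nu ℓ k a4 a6 = X ^ (2 * ℓ + 1) + (X ^ (ℓ + 2) - X ^ 3 + C (algebraMap (ZMod ℓ) k a4) * X ^ ℓ
      + C (algebraMap (ZMod ℓ) k a6) + 2 * fk ℓ k a4 a6 ^ (ℓ / 2 + 1) + fk ℓ k a4 a6) := by
  obtain ⟨-, hm⟩ := half_pos hodd
  have e1 : fk ℓ k a4 a6 * (fk ℓ k a4 a6 ^ (ℓ / 2) + 1) ^ 2
      = fk ℓ k a4 a6 ^ ℓ + 2 * fk ℓ k a4 a6 ^ (ℓ / 2 + 1) + fk ℓ k a4 a6 := by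
    have e0 : ∀ (g : k[X]) (m : ℕ), g * (g ^ m + 1) ^ 2 = g ^ (2 * m + 1) + 2 * g ^ (m + 1) + g := by
      intros; ring
    have e2 : fk ℓ k a4 a6 ^ (2 * (ℓ / 2) + 1) = fk ℓ k a4 a6 ^ ℓ :=
      congrArg (fun n => fk ℓ k a4 a6 ^ n) hm.symm
    rw [e0, e2]
  unfold Nu
  rw [e1, fk_pow_card]
  ring

theorem natDegree_Nu (hodd : ℓ ≠ 2) : (Nu ℓ k a4 a6).natDegree = 2 * ℓ + 1 := by
  obtain ⟨hm1, hm⟩ := half_pos hodd
  have hp : ℓ.Prime := Fact.out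
  have h2 := hp.two_le
  rw [Nu_eq hodd]
  have hR : (X ^ (ℓ + 2) - X ^ 3 + C (algebraMap (ZMod ℓ) k a4) * X ^ ℓ
      + C (algebraMap (ZMod ℓ) k a6) + 2 * fk ℓ k a4 a6 ^ (ℓ / 2 + 1)
      + fk ℓ k a4 a6 : k[X]).natDegree ≤ 2 * ℓ := by
    refine natDegree_add_le_of_degree_le (natDegree_add_le_of_degree_le
      (natDegree_add_le_of_degree_le (natDegree_add_le_of_degree_le
      ((natDegree_sub_le _ _).trans (max_le ?_ ?_)) ?_) ?_) ?_) ?_
    · exact (natDegree_X_pow_le _).trans (by omega)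
    · exact (natDegree_X_pow_le _).trans (by omega)
    · exact (natDegree_C_mul_le _ _).trans ((natDegree_X_pow_le _).trans (by omega))
    · rw [natDegree_C]; omega
    · refine (natDegree_mul_le_of_le (natDegree_ofNat 2).le
        (natDegree_pow_le_of_le _ natDegree_fk_le)).trans ?_
      omega
    · exact natDegree_fk_le.trans (by omega)
  rw [natDegree_add_eq_left_of_natDegree_lt]
  · exact natDegree_X_pow _
  · rw [natDegree_X_pow]; omega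

theorem exists_rep (hodd : ℓ ≠ 2) (hsep : ∀ c, f0 ℓ a4 a6 c = 0 → 3 * c ^ 2 + a4 ≠ 0) :
    ∃ N D Cc : k[X], IsCoprime N D ∧ Nu ℓ k a4 a6 = Cc * N ∧ (X ^ ℓ - X) ^ 2 = Cc * D ∧
      N.natDegree = 1 + ∑ c, ecount ℓ a4 a6 c ∧ D.natDegree = ∑ c, ecount ℓ a4 a6 c := by
  have hinj : Function.Injective (algebraMap (ZMod ℓ) k) := (algebraMap (ZMod ℓ) k).injective
  set Cc : k[X] := ∏ c : ZMod ℓ, (X - C (algebraMap (ZMod ℓ) k c)) ^ (2 - ecount ℓ a4 a6 c)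
    with hCc
  set D : k[X] := ∏ c : ZMod ℓ, (X - C (algebraMap (ZMod ℓ) k c)) ^ (ecount ℓ a4 a6 c) with hD
  have hCD : (X ^ ℓ - X) ^ 2 = Cc * D := by
    rw [← prod_X_sub_C_eq, hCc, hD, ← Finset.prod_mul_distrib, ← Finset.prod_pow]
    refine Finset.prod_congr rfl fun c _ => ?_
    rw [← pow_add]
    congr 1
    have := ecount_le (a4 := a4) (a6 := a6) c
    omega
  have hdvd : Cc ∣ Nu ℓ k a4 a6 := by
    refine Finset.prod_dvd_of_coprime (fun c _ c' _ hne => ?_) (fun c _ => dvd_Nu c)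
    apply IsCoprime.pow
    apply isCoprime_X_sub_C_of_isUnit_sub
    exact (sub_ne_zero.mpr (fun h => hne (hinj h))).isUnit
  obtain ⟨N, hN⟩ := hdvd
  have hNu0 : Nu ℓ k a4 a6 ≠ 0 := by
    intro h
    have := natDegree_Nu (k := k) (a4 := a4) (a6 := a6) hodd
    rw [h, natDegree_zero] at this
    omega
  have hCcm : Cc.Monic := monic_prod_of_monic _ _ fun c _ => (monic_X_sub_C _).pow _
  have hN0 : N ≠ 0 := by
    rintro rfl
    exact hNu0 (by rw [hN, mul_zero])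
  have hdegC : Cc.natDegree = ∑ c, (2 - ecount ℓ a4 a6 c) := by
    rw [hCc, natDegree_prod_of_monic _ _ fun c _ => (monic_X_sub_C _).pow _]
    refine Finset.sum_congr rfl fun c _ => ?_
    rw [(monic_X_sub_C _).natDegree_pow, natDegree_X_sub_C, mul_one]
  have hdegD : D.natDegree = ∑ c, ecount ℓ a4 a6 c := by
    rw [hD, natDegree_prod_of_monic _ _ fun c _ => (monic_X_sub_C _).pow _]
    refine Finset.sum_congr rfl fun c _ => ?_
    rw [(monic_X_sub_C _).natDegree_pow, natDegree_X_sub_C, mul_one]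
  have hsum : ∑ c, (2 - ecount ℓ a4 a6 c) + ∑ c, ecount ℓ a4 a6 c = 2 * ℓ := by
    rw [← Finset.sum_add_distrib]
    have : ∀ c ∈ (Finset.univ : Finset (ZMod ℓ)),
        2 - ecount ℓ a4 a6 c + ecount ℓ a4 a6 c = 2 := fun c _ => by
      have := ecount_le (a4 := a4) (a6 := a6) c
      omega
    rw [Finset.sum_congr rfl this, Finset.sum_const, Finset.card_univ, ZMod.card, smul_eq_mul,
      mul_comm]
  have hdegN : N.natDegree = 1 + ∑ c, ecount ℓ a4 a6 c := by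
    have h1 := natDegree_Nu (k := k) (a4 := a4) (a6 := a6) hodd
    rw [hN, natDegree_mul hCcm.ne_zero hN0, hdegC] at h1
    omega
  refine ⟨N, D, Cc, ?_, hN, hCD, hdegN, hdegD⟩
  rw [hD]
  refine IsCoprime.prod_right fun c _ => ?_
  by_cases hc : ecount ℓ a4 a6 c = 0
  · rw [hc, pow_zero]; exact isCoprime_one_right
  · apply IsCoprime.pow_right
    rw [isCoprime_comm, (irreducible_X_sub_C _).coprime_iff_not_dvd]
    intro hd
    have hle := ecount_le (a4 := a4) (a6 := a6) c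
    apply not_dvd_Nu (k := k) hodd hsep c (Nat.pos_of_ne_zero hc)
    have h1 : (X - C (algebraMap (ZMod ℓ) k c)) ^ (2 - ecount ℓ a4 a6 c) ∣ Cc :=
      Finset.dvd_prod_of_mem _ (Finset.mem_univ c)
    have h2 := mul_dvd_mul h1 hd
    rw [← pow_succ, ← hN] at h2
    have e : 2 - ecount ℓ a4 a6 c + 1 = 3 - ecount ℓ a4 a6 c := by omega
    rwa [e] at h2

end Poly


section Count

variable {ℓ : ℕ} [Fact ℓ.Prime]

theorem card_sq (hodd : ℓ ≠ 2) (a : ZMod ℓ) :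
    (Finset.univ.filter (fun y : ZMod ℓ => y ^ 2 = a)).card =
      if a = 0 then 1 else if a ^ (ℓ / 2) = 1 then 2 else 0 := by
  split_ifs with h0 h1
  · subst h0
    rw [Finset.card_eq_one]
    refine ⟨0, ?_⟩
    ext y
    simp
  · obtain ⟨b, hb⟩ := (ZMod.euler_criterion ℓ h0).mpr h1
    have hb0 : b ≠ 0 := by
      rintro rfl
      exact h0 (by rw [hb, mul_zero])
    have hbne : b ≠ -b := by
      intro h
      have h2 : (2 : ZMod ℓ) * b = 0 := by linear_combination h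
      rcases mul_eq_zero.mp h2 with h | h
      · exact two_ne_zero_zmod hodd h
      · exact hb0 h
    have : Finset.univ.filter (fun y : ZMod ℓ => y ^ 2 = a) = {b, -b} := by
      ext y
      simp only [Finset.mem_filter, Finset.mem_univ, true_and, Finset.mem_insert,
        Finset.mem_singleton]
      rw [hb, ← pow_two, sq_eq_sq_iff_eq_or_eq_neg]
    rw [this, Finset.card_pair hbne]
  · rw [Finset.card_eq_zero, Finset.filter_eq_empty_iff]
    intro y _ hy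
    exact h1 ((ZMod.euler_criterion ℓ h0).mp ⟨y, by rw [← hy, pow_two]⟩)

theorem odd_of_short (E0 : WeierstrassCurve (ZMod ℓ)) (h1 : E0.a₁ = 0) (h2 : E0.a₂ = 0)
    (h3 : E0.a₃ = 0) (hΔ : E0.Δ ≠ 0) : ℓ ≠ 2 := by
  intro h
  apply hΔ
  have h2' : (2 : ZMod ℓ) = 0 := by
    have : ((2 : ℕ) : ZMod ℓ) = 0 := by rw [ZMod.natCast_eq_zero_iff, h]
    exact_mod_cast this
  simp only [WeierstrassCurve.Δ, WeierstrassCurve.b₂, WeierstrassCurve.b₄, WeierstrassCurve.b₆,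
    WeierstrassCurve.b₈, h1, h2, h3]
  linear_combination (-(32 * E0.a₄ ^ 3) - 216 * E0.a₆ ^ 2) * h2'

theorem nonsingular_iff_short (E0 : WeierstrassCurve (ZMod ℓ)) (h1 : E0.a₁ = 0) (h2 : E0.a₂ = 0)
    (h3 : E0.a₃ = 0) (hΔ : E0.Δ ≠ 0) (x y : ZMod ℓ) :
    E0.toAffine.Nonsingular x y ↔ y ^ 2 = f0 ℓ E0.a₄ E0.a₆ x := by
  rw [← equation_iff_nonsingular_of_Δ_ne_zero hΔ, equation_iff]
  simp [h1, h2, h3, f0]

theorem sep_of_short (E0 : WeierstrassCurve (ZMod ℓ)) (h1 : E0.a₁ = 0) (h2 : E0.a₂ = 0)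
    (h3 : E0.a₃ = 0) (hΔ : E0.Δ ≠ 0) (c : ZMod ℓ) (hc : f0 ℓ E0.a₄ E0.a₆ c = 0) :
    3 * c ^ 2 + E0.a₄ ≠ 0 := by
  have hns : E0.toAffine.Nonsingular c 0 :=
    (nonsingular_iff_short E0 h1 h2 h3 hΔ c 0).mpr (by rw [hc]; ring)
  rw [nonsingular_iff'] at hns
  rcases hns.2 with h | h
  · intro h0
    apply h
    simp only [h1, h2]
    linear_combination -h0
  · exact absurd (by simp [h1, h3]) h

theorem card_point (E0 : WeierstrassCurve (ZMod ℓ)) (h1 : E0.a₁ = 0) (h2 : E0.a₂ = 0)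
    (h3 : E0.a₃ = 0) (hΔ : E0.Δ ≠ 0) :
    Nat.card E0.toAffine.Point = 1 + ∑ c, ecount ℓ E0.a₄ E0.a₆ c := by
  classical
  have hodd := odd_of_short E0 h1 h2 h3 hΔ
  have heq := nonsingular_iff_short E0 h1 h2 h3 hΔ
  let e : E0.toAffine.Point ≃
      Option {p : ZMod ℓ × ZMod ℓ // p.2 ^ 2 = f0 ℓ E0.a₄ E0.a₆ p.1} :=
    { toFun := fun P => match P with
        | .zero => none
        | .some x y h => some ⟨(x, y), (heq x y).mp h⟩
      invFun := fun o => match o with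
        | none => .zero
        | some p => .some p.1.1 p.1.2 ((heq _ _).mpr p.2)
      left_inv := by rintro (_ | _) <;> rfl
      right_inv := by rintro (_ | ⟨⟨x, y⟩, h⟩) <;> rfl }
  rw [Nat.card_congr e, Nat.card_eq_fintype_card, Fintype.card_option, Fintype.card_subtype,
    add_comm]
  congr 1
  rw [Finset.card_filter, Fintype.sum_prod_type]
  refine Finset.sum_congr rfl fun c _ => ?_
  rw [← Finset.card_filter]
  unfold ecount
  exact card_sq hodd (f0 ℓ E0.a₄ E0.a₆ c)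

end Count

section Curve

variable {ℓ : ℕ} [Fact ℓ.Prime] {k : Type u} [Field k] [Algebra (ZMod ℓ) k] [DecidableEq k]

omit [DecidableEq k] in
theorem some_congr {W : Affine k} {x x' y y' : k} (h : W.Nonsingular x y) (ex : x = x')
    (ey : y = y') : ∃ h' : W.Nonsingular x' y', Point.some x y h = Point.some x' y' h' := by
  subst ex ey
  exact ⟨h, rfl⟩

theorem xRep_sub_of_X_ne {W : Affine k} {x₁ y₁ x₂ y₂ : k} (h₁ : W.Nonsingular x₁ y₁)
    (h₂ : W.Nonsingular x₂ y₂) (hx : x₁ ≠ x₂) :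
    (Point.some x₁ y₁ h₁ - Point.some x₂ y₂ h₂).xRep =
      ![W.addX x₁ x₂ (W.slope x₁ x₂ y₁ (W.negY x₂ y₂)), 1] := by
  rw [sub_eq_add_neg, Point.neg_some, Point.add_of_X_ne hx, Point.xRep_some]

theorem frob_sub_apply (E0 : WeierstrassCurve (ZMod ℓ)) (h1 : E0.a₁ = 0) (h2 : E0.a₂ = 0)
    (h3 : E0.a₃ = 0) (hodd : ℓ ≠ 2) (x y : k) (h : (E0.toAffine⁄k).Nonsingular x y)
    (hx : x ^ ℓ ≠ x) :
    ∃ X3 : k, ((frobPt ℓ E0 k - AddMonoidHom.id _ :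
        (E0.toAffine⁄k).Point →+ (E0.toAffine⁄k).Point) (Point.some x y h)).xRep = ![X3, 1] ∧
      X3 * ((X ^ ℓ - X) ^ 2 : k[X]).eval x = (Nu ℓ k E0.a₄ E0.a₆).eval x := by
  obtain ⟨-, hm⟩ := half_pos hodd
  have hfr : ∀ z : k, FiniteField.frobeniusAlgHom (ZMod ℓ) k z = z ^ ℓ := fun z => by
    rw [FiniteField.coe_frobeniusAlgHom, ZMod.card]
  have heq : y ^ 2 = x ^ 3 + algebraMap (ZMod ℓ) k E0.a₄ * x + algebraMap (ZMod ℓ) k E0.a₆ := by
    have := h.1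
    rw [equation_iff] at this
    simpa [h1, h2, h3] using this
  obtain ⟨h', hP⟩ : ∃ h' : (E0.toAffine⁄k).Nonsingular (x ^ ℓ) (y ^ ℓ),
      frobPt ℓ E0 k (Point.some x y h) = Point.some (x ^ ℓ) (y ^ ℓ) h' := by
    unfold frobPt
    rw [Point.map_some]
    exact some_congr _ (hfr x) (hfr y)
  refine ⟨(E0.toAffine⁄k).addX (x ^ ℓ) x
    ((E0.toAffine⁄k).slope (x ^ ℓ) x (y ^ ℓ) ((E0.toAffine⁄k).negY x y)), ?_, ?_⟩
  · rw [AddMonoidHom.sub_apply, AddMonoidHom.id_apply, hP, xRep_sub_of_X_ne h' h hx]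
  · have hx' : x ^ ℓ - x ≠ 0 := sub_ne_zero.mpr hx
    have hy : y ^ ℓ = (y ^ 2) ^ (ℓ / 2) * y := by
      have : y ^ ℓ = y ^ (2 * (ℓ / 2) + 1) := congrArg (fun n => y ^ n) hm
      rw [this]; ring
    rw [slope_of_X_ne hx]
    simp only [addX, negY, Nu, fk, eval_sub, eval_mul, eval_pow, eval_add, eval_X, eval_C,
      eval_one, map_zero, h1, h2, h3, baseChange_a₁, baseChange_a₂, baseChange_a₃]
    rw [← heq, hy]
    field_simp
    ring

end Curve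

end Fermat.Agent.S52.M2.Hasse

namespace Fermat.Agent.S52.M2

open Polynomial WeierstrassCurve WeierstrassCurve.Affine Hasse

universe u

/-- **[M2-HASSE]** Hasse's count: the `x`-degree of `φ - 1` is `#E0(𝔽_ℓ)`. -/
theorem hasXDeg_frob_sub_one : HasseStmt.{u} := by
  intro ℓ _ E0 k _ _ _ _ h1 h2 h3 hΔ
  have hodd := odd_of_short E0 h1 h2 h3 hΔ
  have hℓ : 1 < ℓ := (Fact.out : ℓ.Prime).one_lt
  obtain ⟨N, D, Cc, hcop, hNu, hDu, hdN, hdD⟩ :=
    exists_rep (k := k) (a4 := E0.a₄) (a6 := E0.a₆) hodd (sep_of_short E0 h1 h2 h3 hΔ)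
  refine ⟨N, D, ⟨hcop, (X ^ ℓ - X : k[X]).roots.toFinset, fun x y h hx => ?_⟩, ?_⟩
  · have hx' : x ^ ℓ ≠ x := by
      intro hxx
      apply hx
      rw [Multiset.mem_toFinset, mem_roots (FiniteField.X_pow_card_sub_X_ne_zero k hℓ)]
      simp [hxx]
    obtain ⟨X3, hrep, hX3⟩ := frob_sub_apply E0 h1 h2 h3 hodd x y h hx'
    have hCD : Cc.eval x * D.eval x ≠ 0 := by
      rw [← eval_mul, ← hDu]
      simp [sub_ne_zero.mpr hx']
    refine ⟨D.eval x, right_ne_zero_of_mul hCD, ?_, ?_⟩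
    · rw [hrep]
      have : Cc.eval x * N.eval x = Cc.eval x * (D.eval x * X3) := by
        rw [← eval_mul, ← hNu, ← hX3, hDu, eval_mul]; ring
      simpa using mul_left_cancel₀ (left_ne_zero_of_mul hCD) this
    · rw [hrep]; simp
  · rw [hdN, hdD, card_point E0 h1 h2 h3 hΔ]
    exact max_eq_left (by omega)

end Fermat.Agent.S52.M2
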