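import Mathlib
import Fermat.Agent.S52.M2.Defs
import Fermat.Agent.S52.M2.Plan

/-!
# S52 / [M2]: uniqueness of the `x`-degree, and degree zero means zero

Two contracts of `M2/Plan.lean`:

* `Uniq.uniqStmt : UniqStmt` — two generic `x`-representations `(N, D)`, `(N', D')` of the same
  endomorphism satisfy `N D' = N' D`, hence (coprimality) have the same degrees;
* `Uniq.zeroStmt : ZeroStmt` — an endomorphism with a generic `x`-representation by constants is zero:
  either it vanishes on a cofinite set of points (then its kernel is a subgroup with finite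
  complement in an infinite group), or its generic values have a fixed abscissa, so its image and
  its kernel are both finite, which is impossible on the infinite group `E(k)`.
-/

set_option autoImplicit false

namespace Fermat.Agent.S52.M2

open Polynomial WeierstrassCurve WeierstrassCurve.Affine

universe u

namespace Uniq

variable {k : Type u} [Field k] [IsAlgClosed k] [DecidableEq k] {W : Affine k}

/-- Over an algebraically closed field every abscissa carries a point. -/
theorem exists_y (hW : IsShort W) (hΔ : W.Δ ≠ 0) (x : k) : ∃ y : k, W.Nonsingular x y := by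
  obtain ⟨y, hy⟩ := IsAlgClosed.exists_pow_nat_eq (x ^ 3 + W.a₄ * x + W.a₆) (n := 2) (by norm_num)
  refine ⟨y, (Affine.equation_iff_nonsingular_of_Δ_ne_zero hΔ).mp ?_⟩
  rw [Affine.equation_iff, hW.1, hW.2.1, hW.2.2]
  linear_combination hy

/-- A chosen point above every abscissa. -/
noncomputable def pt (hW : IsShort W) (hΔ : W.Δ ≠ 0) (x : k) : W.Point :=
  Point.some x (exists_y hW hΔ x).choose (exists_y hW hΔ x).choose_spec

theorem pt_injective (hW : IsShort W) (hΔ : W.Δ ≠ 0) : Function.Injective (pt hW hΔ) := by
  intro x x' h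
  simp only [pt, Point.some.injEq] at h
  exact h.1

theorem infinite_point (hW : IsShort W) (hΔ : W.Δ ≠ 0) : Infinite W.Point :=
  Infinite.of_injective _ (pt_injective hW hΔ)

/-- The "bad" points relative to a finite set `S` of abscissae: the origin and the points above
`S`. -/
def bad (W : Affine k) (S : Finset k) : Set W.Point :=
  {P | ∀ (x y : k) (h : W.Nonsingular x y), P = Point.some x y h → x ∈ S}

theorem bad_finite (hW : IsShort W) (hΔ : W.Δ ≠ 0) (S : Finset k) : (bad W S).Finite := by
  refine Set.Finite.subset (s := insert 0 (⋃ x ∈ (S : Set k), {pt hW hΔ x, -pt hW hΔ x})) ?_ ?_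
  · exact Set.Finite.insert _ (Set.Finite.biUnion S.finite_toSet (fun x _ => by simp))
  · intro P hP
    rcases P with _ | ⟨x, y, h⟩
    · left; rfl
    · right
      have hx : x ∈ S := hP x y h rfl
      simp only [Set.mem_iUnion]
      refine ⟨x, hx, ?_⟩
      have hrep : (Point.some x y h : W.Point).xRep = (pt hW hΔ x).xRep := by
        simp [pt, Point.xRep_some]
      rcases Point.eq_or_eq_neg_of_xRep_eq_xRep hrep with e | e
      · left; exact e
      · right; exact e

theorem exists_of_not_mem_bad {S : Finset k} {P : W.Point} (hP : P ∉ bad W S) :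
    ∃ (x y : k) (h : W.Nonsingular x y), P = Point.some x y h ∧ x ∉ S := by
  simp only [bad, Set.mem_ofPred_eq, not_forall] at hP
  obtain ⟨x, y, h, e, hx⟩ := hP
  exact ⟨x, y, h, e, hx⟩

/-- Two generic `x`-representations of the same endomorphism are cross-proportional. -/
theorem cross_eq (hW : IsShort W) (hΔ : W.Δ ≠ 0) (α : W.Point →+ W.Point) {N D N' D' : k[X]}
    (h : GenXRep W α N D) (h' : GenXRep W α N' D') : N * D' = N' * D := by
  obtain ⟨-, S, hS⟩ := h
  obtain ⟨-, S', hS'⟩ := h'
  have h0 : N * D' - N' * D = 0 := by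
    apply Polynomial.eq_zero_of_infinite_isRoot
    apply Set.Infinite.mono (s := ((S ∪ S' : Finset k) : Set k)ᶜ)
    · intro x hx
      have hx' : x ∉ S ∧ x ∉ S' := by
        simpa [not_or] using hx
      obtain ⟨y, hy⟩ := exists_y hW hΔ x
      obtain ⟨c, -, e1, e2⟩ := hS x y hy hx'.1
      obtain ⟨c', -, e1', e2'⟩ := hS' x y hy hx'.2
      simp only [Set.mem_ofPred_eq, IsRoot.def, eval_sub, eval_mul, e1, e2, e1', e2']
      ring
    · exact Set.Finite.infinite_compl (Finset.finite_toSet _)
  exact sub_eq_zero.mp h0

theorem natDegree_eq_of_cross {N D N' D' : k[X]} (hc : IsCoprime N D) (hc' : IsCoprime N' D')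
    (e : N * D' = N' * D) : N.natDegree = N'.natDegree ∧ D.natDegree = D'.natDegree := by
  have h1 : N ∣ N' := hc.dvd_of_dvd_mul_right ⟨D', e.symm⟩
  have h2 : N' ∣ N := hc'.dvd_of_dvd_mul_right ⟨D, e⟩
  have h3 : D ∣ D' := hc.symm.dvd_of_dvd_mul_left ⟨N', by rw [mul_comm D N', ← e, mul_comm]⟩
  have h4 : D' ∣ D := hc'.symm.dvd_of_dvd_mul_left ⟨N, by rw [mul_comm D' N, e, mul_comm]⟩
  constructor
  · exact natDegree_eq_of_degree_eq (degree_eq_degree_of_associated (associated_of_dvd_dvd h1 h2))
  · exact natDegree_eq_of_degree_eq (degree_eq_degree_of_associated (associated_of_dvd_dvd h3 h4))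

/-- A subgroup of an infinite additive group whose complement is finite is everything. -/
theorem eq_top_of_finite_compl {G : Type*} [AddGroup G] [Infinite G] (K : AddSubgroup G)
    (hK : ((K : Set G)ᶜ).Finite) : K = ⊤ := by
  rw [eq_top_iff]
  intro Q _
  by_contra hQ
  have hKinf : (K : Set G).Infinite := by
    intro hfin
    have : (Set.univ : Set G).Finite := by
      rw [← Set.union_compl_self (K : Set G)]
      exact hfin.union hK
    exact Set.infinite_univ this
  have hsub : (fun P => Q + P) '' (K : Set G) ⊆ (K : Set G)ᶜ := by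
    rintro _ ⟨P, hP, rfl⟩ hmem
    apply hQ
    have : Q = (Q + P) - P := (add_sub_cancel_right Q P).symm
    rw [this]
    exact K.sub_mem hmem hP
  have hfin : ((fun P => Q + P) '' (K : Set G)).Finite := hK.subset hsub
  exact hKinf (hfin.of_finite_image (fun a _ b _ hab => add_left_cancel hab))

/-- An endomorphism of an infinite additive group cannot have both finite range and finite
kernel. -/
theorem false_of_finite_range_ker {G : Type*} [AddGroup G] [Infinite G] (α : G →+ G)
    (hr : (Set.range α).Finite) (hk : {P : G | α P = 0}.Finite) : False := by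
  have hfib : ∀ b ∈ Set.range α, (α ⁻¹' {b}).Finite := by
    rintro _ ⟨P₀, rfl⟩
    have hsub : α ⁻¹' {α P₀} ⊆ (fun P => P₀ + P) '' {P : G | α P = 0} := by
      intro P hP
      refine ⟨-P₀ + P, ?_, add_neg_cancel_left P₀ P⟩
      simp only [Set.mem_preimage, Set.mem_singleton_iff] at hP
      simp [map_add, hP]
    exact (hk.image _).subset hsub
  have : (α ⁻¹' Set.range α).Finite := Set.Finite.preimage' hr hfib
  have huniv : (Set.univ : Set G).Finite := by
    refine this.subset ?_
    intro P _
    exact ⟨P, rfl⟩
  exact Set.infinite_univ huniv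

/-- **[M2-CORE]** the `x`-degree is unique. -/
theorem uniqStmt : UniqStmt.{u} := by
  intro k _ _ _ W hW hΔ α d d' hd hd'
  obtain ⟨N, D, h, rfl⟩ := hd
  obtain ⟨N', D', h', rfl⟩ := hd'
  obtain ⟨e1, e2⟩ := natDegree_eq_of_cross h.1 h'.1 (cross_eq hW hΔ α h h')
  rw [e1, e2]

/-- **[M2-CORE]** degree zero means zero. -/
theorem zeroStmt : ZeroStmt.{u} := by
  intro k _ _ _ W hW hΔ α hα
  obtain ⟨N, D, ⟨hcop, S, hS⟩, hmax⟩ := hα
  have : Infinite W.Point := infinite_point hW hΔ
  have hN0 : N.natDegree = 0 := Nat.le_zero.mp (hmax ▸ le_max_left _ _)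
  have hD0 : D.natDegree = 0 := Nat.le_zero.mp (hmax ▸ le_max_right _ _)
  obtain ⟨n₀, rfl⟩ : ∃ n₀ : k, N = C n₀ := ⟨_, eq_C_of_natDegree_eq_zero hN0⟩
  obtain ⟨d₀, rfl⟩ : ∃ d₀ : k, D = C d₀ := ⟨_, eq_C_of_natDegree_eq_zero hD0⟩
  have hbad := bad_finite hW hΔ S
  by_cases hd : d₀ = 0
  · -- `α` vanishes generically
    subst hd
    have hgen : ∀ P : W.Point, P ∉ bad W S → α P = 0 := by
      intro P hP
      obtain ⟨x, y, h, rfl, hx⟩ := exists_of_not_mem_bad hP
      obtain ⟨c, hc, -, e2⟩ := hS x y h hx
      rw [eval_C] at e2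
      have h1 : (α (Point.some x y h)).xRep 1 = 0 := by
        rcases mul_eq_zero.mp e2.symm with h | h
        · exact absurd h hc
        · exact h
      rcases hP' : α (Point.some x y h) with _ | ⟨x', y', h'⟩
      · rfl
      · rw [hP', Point.xRep_some] at h1
        simp at h1
    have hK : ((α.ker : Set W.Point)ᶜ).Finite := by
      refine hbad.subset ?_
      intro P hP
      by_contra hPb
      exact hP (AddMonoidHom.mem_ker.mpr (hgen P hPb))
    have htop := eq_top_of_finite_compl α.ker hK
    ext P
    have : P ∈ α.ker := htop ▸ AddSubgroup.mem_top P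
    simpa using AddMonoidHom.mem_ker.mp this
  · -- generic values have abscissa `n₀ / d₀`: impossible
    exfalso
    have hgen : ∀ P : W.Point, P ∉ bad W S →
        α P ≠ 0 ∧ (α P).xRep = ![n₀ / d₀, 1] := by
      intro P hP
      obtain ⟨x, y, h, rfl, hx⟩ := exists_of_not_mem_bad hP
      obtain ⟨c, hc, e1, e2⟩ := hS x y h hx
      rw [eval_C] at e1 e2
      rcases hP' : α (Point.some x y h) with _ | ⟨x', y', h'⟩
      · rw [hP', Point.zero_def.symm, Point.xRep_zero] at e2
        simp at e2
        exact absurd e2 hd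
      · rw [hP', Point.xRep_some] at e1 e2
        simp only [Matrix.cons_val_zero, Matrix.cons_val_one] at e1 e2
        refine ⟨Point.some_ne_zero h', ?_⟩
        rw [Point.xRep_some]
        have hx' : x' = n₀ / d₀ := by
          have hc1 : c = d₀ := by simpa using e2.symm
          rw [e1, hc1]
          field_simp
        rw [hx']
    -- kernel finite
    have hker : {P : W.Point | α P = 0}.Finite := by
      refine hbad.subset ?_
      intro P hP
      by_contra hPb
      exact (hgen P hPb).1 hP
    -- range finite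
    have hF : {Q : W.Point | Q.xRep = ![n₀ / d₀, 1]}.Finite := by
      by_cases hne : ∃ R : W.Point, R.xRep = ![n₀ / d₀, 1]
      · obtain ⟨R, hR⟩ := hne
        refine Set.Finite.subset (s := {R, -R}) (by simp) ?_
        intro Q hQ
        have hQR : Q.xRep = R.xRep := by rw [hR]; exact hQ
        rcases Point.eq_or_eq_neg_of_xRep_eq_xRep hQR with e | e
        · left; exact e
        · right; exact e
      · refine Set.Finite.subset Set.finite_empty ?_
        intro Q hQ
        exact absurd ⟨Q, hQ⟩ hne
    have hrange : (Set.range α).Finite := by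
      refine Set.Finite.subset (hF.union (hbad.image α)) ?_
      rintro _ ⟨P, rfl⟩
      by_cases hPb : P ∈ bad W S
      · right; exact ⟨P, hPb, rfl⟩
      · left; exact (hgen P hPb).2
    exact false_of_finite_range_ker α hrange hker

end Uniq

end Fermat.Agent.S52.M2
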